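import Fermat.Agent.SmallCurves.X1Eleven.Isogeny

/-!
Lifting a point of `y² + y = x³ - x²` with a fifth root of `xy + y + x²` through the dual isogeny.
-/

set_option autoImplicit false

namespace FLTAgent.SmallCurves.X1Eleven

variable {F : Type*} [Field F]

/-- The numerator of the abscissa of the dual isogeny. -/
def hatNum (X : F) : F := X ^ 5 + 10 * X ^ 4 + 45 * X ^ 3 - 400 * X ^ 2 - 845 * X - 775

/-- The denominator of the abscissa of the dual isogeny. -/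
def hatDen (X : F) : F := 5 * X ^ 2 + 5 * X - 29

set_option maxHeartbeats 2000000 in
lemma exists_lift {x y w : F} (hE : OnE x y) (h0 : x ≠ 0) (hw : w ^ 5 = x * y + y + x ^ 2) :
    ∃ X Y : F, OnE' X Y ∧ x * hatDen X ^ 2 = hatNum X := by
  unfold OnE at hE
  obtain ⟨N, hN⟩ : ∃ N, N = -4 * w^4 * y * x + w^4 * y + 5 * w^4 * x^3 - w^4 * x^2 - 4 * w^4 * x + w^4 + 5 * w^3
        * y * x^2 + 3 * w^3 * y * x - 3 * w^3 * x^3 + 5 * w^3 * x^2 + 3 * w^3 * x - 2 * w^2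
        * y * x^2 + 5 * w^2 * x^4 - 2 * w^2 * x^2 + 5 * w * y * x^3 - w * x^4 + 5 * w * x^3
        + 5 * x^5 - 2 * x^4 :=
    ⟨_, rfl⟩
  obtain ⟨M, hM⟩ : ∃ M, M = 25 * w^4 * y * x^2 + 8 * w^4 * y * x - 12 * w^4 * y - 20 * w^4 * x^3 + 37 * w^4 *
        x^2 + 8 * w^4 * x - 12 * w^4 - 15 * w^3 * y * x^2 + 8 * w^3 * y * x + 25 * w^3 * x^4
        - 8 * w^3 * x^3 - 15 * w^3 * x^2 + 8 * w^3 * x + 25 * w^2 * y * x^3 + 2 * w^2 * y *
        x^2 - 10 * w^2 * x^4 + 25 * w^2 * x^3 + 2 * w^2 * x^2 - 5 * w * y * x^3 + 25 * w *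
        x^5 - 12 * w * x^4 - 5 * w * x^3 + 25 * y * x^4 + 12 * x^4 :=
    ⟨_, rfl⟩
  have s2 : M ^ 2 = -2500 * w^4 * y * x^7 + 2625 * w^4 * y * x^6 + 250 * w^4 * y * x^5 - 364 * w^4 * y *
        x^4 + 3125 * w^4 * x^9 - 2125 * w^4 * x^8 - 3114 * w^4 * x^7 + 2989 * w^4 * x^6 +
        250 * w^4 * x^5 - 364 * w^4 * x^4 + 3125 * w^3 * y * x^8 - 1000 * w^3 * y * x^7 -
        994 * w^3 * y * x^6 + 316 * w^3 * y * x^5 - 1875 * w^3 * x^9 + 4550 * w^3 * x^8 -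
        1316 * w^3 * x^7 - 994 * w^3 * x^6 + 316 * w^3 * x^5 - 1250 * w^2 * y * x^8 + 1400 *
        w^2 * y * x^7 - 119 * w^2 * y * x^6 + 3125 * w^2 * x^10 - 2875 * w^2 * x^9 - 799 *
        w^2 * x^8 + 1400 * w^2 * x^7 - 119 * w^2 * x^6 + 3125 * w * y * x^9 - 1500 * w * y *
        x^8 - 104 * w * y * x^7 - 625 * w * x^10 + 2575 * w * x^9 - 1112 * w * x^8 - 104 * w
        * x^7 - 25 * y * x^8 + 3125 * x^11 - 3125 * x^10 + 396 * x^9 + 296 * x^8 := by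
    rw [hM]
    linear_combination (-1000 * w^3 * y * x^5 + 905 * w^3 * y * x^4 + 1072 * w^3 * y * x^3 - 824 * w^3 * y *
        x^2 - 192 * w^3 * y * x + 144 * w^3 * y + 625 * w^3 * x^7 + 175 * w^3 * x^6 - 2416 *
        w^3 * x^5 + 1393 * w^3 * x^4 + 1408 * w^3 * x^3 - 968 * w^3 * x^2 - 192 * w^3 * x +
        144 * w^3 + 1250 * w^2 * y * x^6 + 600 * w^2 * y * x^5 - 2158 * w^2 * y * x^4 + 544
        * w^2 * y * x^3 + 488 * w^2 * y * x^2 - 192 * w^2 * y * x - 1750 * w^2 * x^7 + 3080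
        * w^2 * x^6 + 736 * w^2 * x^5 - 2838 * w^2 * x^4 + 736 * w^2 * x^3 + 488 * w^2 * x^2
        - 192 * w^2 * x - 2250 * w * y * x^6 + 2250 * w * y * x^5 + 885 * w * y * x^4 - 808
        * w * y * x^3 + 16 * w * y * x^2 + 1875 * w * x^8 - 525 * w * x^7 - 3959 * w * x^6 +
        3074 * w * x^5 + 869 * w * x^4 - 808 * w * x^3 + 16 * w * x^2 + 2500 * y * x^7 -
        2104 * y * x^5 + 548 * y * x^4 + 152 * y * x^3 - 2500 * x^8 + 5000 * x^7 - 396 * x^6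
        - 2256 * x^5 + 548 * x^4 + 152 * x^3) * hw +
      (625 * w^8 * x^4 + 400 * w^8 * x^3 - 536 * w^8 * x^2 - 192 * w^8 * x + 144 * w^8 -
        750 * w^7 * x^4 + 160 * w^7 * x^3 + 488 * w^7 * x^2 - 192 * w^7 * x + 1250 * w^6 *
        x^5 + 725 * w^6 * x^4 - 808 * w^6 * x^3 + 16 * w^6 * x^2 - 1000 * w^5 * x^5 + 260 *
        w^5 * x^4 + 152 * w^5 * x^3 + 1875 * w^4 * x^6 + 650 * w^4 * x^5 - 676 * w^4 * x^4 -
        2000 * w^3 * x^6 + 285 * w^3 * x^5 + 1977 * w^3 * x^4 + 248 * w^3 * x^3 - 1016 * w^3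
        * x^2 - 48 * w^3 * x + 144 * w^3 + 2500 * w^2 * x^7 + 1975 * w^2 * x^6 - 1558 * w^2
        * x^5 - 1614 * w^2 * x^4 + 1032 * w^2 * x^3 + 296 * w^2 * x^2 - 192 * w^2 * x - 2500
        * w * x^7 + 3135 * w * x^5 + 77 * w * x^4 - 792 * w * x^3 + 16 * w * x^2 + 3125 *
        x^8 + 2500 * x^7 - 2104 * x^6 - 1556 * x^5 + 700 * x^4 + 152 * x^3) * hE
  have r2 : N ^ 2 = -100 * w^4 * y * x^6 + 70 * w^4 * y * x^5 + 30 * w^4 * y * x^4 + 125 * w^4 * x^8 -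
        40 * w^4 * x^7 - 130 * w^4 * x^6 + 70 * w^4 * x^5 + 30 * w^4 * x^4 + 125 * w^3 * y *
        x^7 + 5 * w^3 * y * x^6 - 31 * w^3 * y * x^5 - 75 * w^3 * x^8 + 156 * w^3 * x^7 + 5
        * w^3 * x^6 - 31 * w^3 * x^5 - 50 * w^2 * y * x^7 + 39 * w^2 * y * x^6 + 125 * w^2 *
        x^9 - 70 * w^2 * x^8 - 50 * w^2 * x^7 + 39 * w^2 * x^6 + 125 * w * y * x^8 - 15 * w
        * y * x^7 - 25 * w * x^9 + 95 * w * x^8 - 15 * w * x^7 + 125 * x^10 - 80 * x^9 + 2 *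
        x^8 := by
    rw [hN]
    linear_combination (-40 * w^3 * y * x^4 + 18 * w^3 * y * x^3 + 14 * w^3 * y * x^2 - 8 * w^3 * y * x +
        w^3 * y + 25 * w^3 * x^6 + 6 * w^3 * x^5 - 63 * w^3 * x^4 + 27 * w^3 * x^3 + 13 *
        w^3 * x^2 - 8 * w^3 * x + w^3 + 50 * w^2 * y * x^5 + 44 * w^2 * y * x^4 - 52 * w^2 *
        y * x^3 - 14 * w^2 * y * x^2 + 6 * w^2 * y * x - 70 * w^2 * x^6 + 82 * w^2 * x^5 +
        64 * w^2 * x^4 - 58 * w^2 * x^3 - 14 * w^2 * x^2 + 6 * w^2 * x - 90 * w * y * x^5 +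
        21 * w * y * x^4 + 46 * w * y * x^3 + 5 * w * y * x^2 + 75 * w * x^7 + 20 * w * x^6
        - 131 * w * x^5 + 16 * w * x^4 + 46 * w * x^3 + 5 * w * x^2 + 100 * y * x^6 + 40 * y
        * x^5 - 62 * y * x^4 - 2 * y * x^3 - 100 * x^7 + 160 * x^6 + 42 * x^5 - 62 * x^4 - 2
        * x^3) * hw +
      (16 * w^8 * x^2 - 8 * w^8 * x + w^8 - 40 * w^7 * x^3 - 14 * w^7 * x^2 + 6 * w^7 * x +
        25 * w^6 * x^4 + 46 * w^6 * x^3 + 5 * w^6 * x^2 - 60 * w^5 * x^4 - 2 * w^5 * x^3 +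
        50 * w^4 * x^5 + 34 * w^4 * x^4 - 60 * w^3 * x^5 - 22 * w^3 * x^4 + 32 * w^3 * x^3 +
        6 * w^3 * x^2 - 7 * w^3 * x + w^3 + 75 * w^2 * x^6 + 94 * w^2 * x^5 - 8 * w^2 * x^4
        - 66 * w^2 * x^3 - 8 * w^2 * x^2 + 6 * w^2 * x - 90 * w * x^6 - 69 * w * x^5 + 67 *
        w * x^4 + 51 * w * x^3 + 5 * w * x^2 + 100 * x^7 + 140 * x^6 - 22 * x^5 - 64 * x^4 -
        2 * x^3) * hE
  have r3 : N ^ 3 = -2500 * w^4 * y * x^11 + 2550 * w^4 * y * x^10 + 288 * w^4 * y * x^9 - 336 * w^4 * y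
        * x^8 + 3125 * w^4 * x^13 - 2000 * w^4 * x^12 - 3124 * w^4 * x^11 + 2886 * w^4 *
        x^10 + 288 * w^4 * x^9 - 336 * w^4 * x^8 + 3125 * w^3 * y * x^12 - 875 * w^3 * y *
        x^11 - 954 * w^3 * y * x^10 + 323 * w^3 * y * x^9 - 1875 * w^3 * x^13 + 4500 * w^3 *
        x^12 - 1198 * w^3 * x^11 - 954 * w^3 * x^10 + 323 * w^3 * x^9 - 1250 * w^2 * y *
        x^12 + 1375 * w^2 * y * x^11 - 98 * w^2 * y * x^10 + 3125 * w^2 * x^14 - 2750 * w^2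
        * x^13 - 829 * w^2 * x^12 + 1375 * w^2 * x^11 - 98 * w^2 * x^10 + 3125 * w * y *
        x^13 - 1375 * w * y * x^12 - 74 * w * y * x^11 - 625 * w * x^14 + 2575 * w * x^13 -
        1039 * w * x^12 - 74 * w * x^11 + 3125 * x^15 - 3000 * x^14 + 366 * x^13 + 310 *
        x^12 := by
    rw [pow_succ, r2, hN]
    linear_combination (-1000 * w^3 * y * x^9 + 735 * w^3 * y * x^8 + 560 * w^3 * y * x^7 - 440 * w^3 * y *
        x^6 - 50 * w^3 * y * x^5 + 30 * w^3 * y * x^4 + 625 * w^3 * x^11 + 75 * w^3 * x^10 -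
        1890 * w^3 * x^9 + 1095 * w^3 * x^8 + 640 * w^3 * x^7 - 470 * w^3 * x^6 - 50 * w^3 *
        x^5 + 30 * w^3 * x^4 + 1250 * w^2 * y * x^10 + 675 * w^2 * y * x^9 - 1839 * w^2 * y
        * x^8 + 37 * w^2 * y * x^7 + 489 * w^2 * y * x^6 + 59 * w^2 * y * x^5 - 1750 * w^2 *
        x^11 + 2755 * w^2 * x^10 + 1068 * w^2 * x^9 - 2269 * w^2 * x^8 - 22 * w^2 * x^7 +
        489 * w^2 * x^6 + 59 * w^2 * x^5 - 2250 * w * y * x^10 + 1620 * w * y * x^9 + 1087 *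
        w * y * x^8 - 486 * w * y * x^7 - 114 * w * y * x^6 + 1875 * w * x^12 - 275 * w *
        x^11 - 3709 * w * x^10 + 1992 * w * x^9 + 1201 * w * x^8 - 486 * w * x^7 - 114 * w *
        x^6 + 2500 * y * x^11 + 150 * y * x^10 - 2154 * y * x^9 + 510 * y * x^8 + 314 * y *
        x^7 - 2500 * x^12 + 4850 * x^11 - 46 * x^10 - 2468 * x^9 + 510 * x^8 + 314 * x^7) * hw +
      (400 * w^8 * x^7 - 380 * w^8 * x^6 - 50 * w^8 * x^5 + 30 * w^8 * x^4 - 1000 * w^7 *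
        x^8 + 155 * w^7 * x^7 + 489 * w^7 * x^6 + 59 * w^7 * x^5 + 625 * w^6 * x^9 + 800 *
        w^6 * x^8 - 486 * w^6 * x^7 - 114 * w^6 * x^6 - 1500 * w^5 * x^9 + 570 * w^5 * x^8 +
        314 * w^5 * x^7 + 1250 * w^4 * x^10 + 425 * w^4 * x^9 - 278 * w^4 * x^8 - 1500 * w^3
        * x^10 - 40 * w^3 * x^9 + 1295 * w^3 * x^8 + 120 * w^3 * x^7 - 490 * w^3 * x^6 - 20
        * w^3 * x^5 + 30 * w^3 * x^4 + 1875 * w^2 * x^11 + 1850 * w^2 * x^10 - 1164 * w^2 *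
        x^9 - 1802 * w^2 * x^8 + 526 * w^2 * x^7 + 548 * w^2 * x^6 + 59 * w^2 * x^5 - 2250 *
        w * x^11 - 630 * w * x^10 + 2707 * w * x^9 + 601 * w * x^8 - 600 * w * x^7 - 114 * w
        * x^6 + 2500 * x^12 + 2650 * x^11 - 2004 * x^10 - 1644 * x^9 + 824 * x^8 + 314 * x^7) * hE
  have r4 : N ^ 4 = -62500 * w^4 * y * x^16 + 83750 * w^4 * y * x^15 - 9240 * w^4 * y * x^14 - 14460 *
        w^4 * y * x^13 + 2571 * w^4 * y * x^12 + 78125 * w^4 * x^18 - 75000 * w^4 * x^17 -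
        67050 * w^4 * x^16 + 100781 * w^4 * x^15 - 11811 * w^4 * x^14 - 14460 * w^4 * x^13 +
        2571 * w^4 * x^12 + 78125 * w^3 * y * x^17 - 46875 * w^3 * y * x^16 - 21800 * w^3 *
        y * x^15 + 17190 * w^3 * y * x^14 - 394 * w^3 * y * x^13 - 46875 * w^3 * x^18 +
        127500 * w^3 * x^17 - 62980 * w^3 * x^16 - 21406 * w^3 * x^15 + 17190 * w^3 * x^14 -
        394 * w^3 * x^13 - 31250 * w^2 * y * x^17 + 44375 * w^2 * y * x^16 - 11470 * w^2 * y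
        * x^15 - 1479 * w^2 * y * x^14 + 78125 * w^2 * x^19 - 93750 * w^2 * x^18 - 3675 *
        w^2 * x^17 + 45460 * w^2 * x^16 - 11470 * w^2 * x^15 - 1479 * w^2 * x^14 + 78125 * w
        * y * x^18 - 59375 * w * y * x^17 + 4200 * w * y * x^16 + 3241 * w * y * x^15 -
        15625 * w * x^19 + 69375 * w * x^18 - 45585 * w * x^17 + 1629 * w * x^16 + 3241 * w
        * x^15 + 78125 * x^20 - 100000 * x^19 + 28200 * x^18 + 10088 * x^17 - 3314 * x^16 := by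
    rw [show N ^ 4 = (N ^ 2) ^ 2 by ring, r2]
    linear_combination (-25000 * w^3 * y * x^14 + 25500 * w^3 * y * x^13 + 17900 * w^3 * y * x^12 - 20600 *
        w^3 * y * x^11 - 2900 * w^3 * y * x^10 + 4200 * w^3 * y * x^9 + 900 * w^3 * y * x^8
        + 15625 * w^3 * x^16 - 54900 * w^3 * x^14 + 40800 * w^3 * x^13 + 24100 * w^3 * x^12
        - 23900 * w^3 * x^11 - 3800 * w^3 * x^10 + 4200 * w^3 * x^9 + 900 * w^3 * x^8 +
        31250 * w^2 * y * x^15 + 6250 * w^2 * y * x^14 - 57350 * w^2 * y * x^13 + 18520 *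
        w^2 * y * x^12 + 18120 * w^2 * y * x^11 - 4040 * w^2 * y * x^10 - 1860 * w^2 * y *
        x^9 - 43750 * w^2 * x^16 + 86500 * w^2 * x^15 + 6170 * w^2 * x^14 - 77650 * w^2 *
        x^13 + 20700 * w^2 * x^12 + 19980 * w^2 * x^11 - 4040 * w^2 * x^10 - 1860 * w^2 *
        x^9 - 56250 * w * y * x^15 + 67875 * w * y * x^14 + 13790 * w * y * x^13 - 30987 * w
        * y * x^12 + 2150 * w * y * x^11 + 3301 * w * y * x^10 + 46875 * w * x^17 - 26250 *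
        w * x^16 - 96575 * w * x^15 + 97711 * w * x^14 + 14941 * w * x^13 - 34288 * w * x^12
        + 2150 * w * x^11 + 3301 * w * x^10 + 62500 * y * x^16 - 17500 * y * x^15 - 58700 *
        y * x^14 + 31708 * y * x^13 + 7090 * y * x^12 - 3318 * y * x^11 - 62500 * x^17 +
        142500 * x^16 - 38800 * x^15 - 69108 * x^14 + 35026 * x^13 + 7090 * x^12 - 3318 *
        x^11) * hw +
      (10000 * w^8 * x^12 - 14000 * w^8 * x^11 - 1100 * w^8 * x^10 + 4200 * w^8 * x^9 + 900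
        * w^8 * x^8 - 25000 * w^7 * x^13 + 16500 * w^7 * x^12 + 14400 * w^7 * x^11 - 4040 *
        w^7 * x^10 - 1860 * w^7 * x^9 + 15625 * w^6 * x^14 + 11250 * w^6 * x^13 - 22525 *
        w^6 * x^12 + 2150 * w^6 * x^11 + 3301 * w^6 * x^10 - 37500 * w^5 * x^14 + 29750 *
        w^5 * x^13 + 8890 * w^5 * x^12 - 3318 * w^5 * x^11 + 31250 * w^4 * x^15 - 11800 *
        w^4 * x^13 + 2451 * w^4 * x^12 - 37500 * w^3 * x^15 + 11750 * w^3 * x^14 + 42230 *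
        w^3 * x^13 - 2700 * w^3 * x^12 - 23500 * w^3 * x^11 + 1300 * w^3 * x^10 + 5100 * w^3
        * x^9 + 900 * w^3 * x^8 + 46875 * w^2 * x^16 + 33750 * w^2 * x^15 - 50875 * w^2 *
        x^14 - 38830 * w^2 * x^13 + 36640 * w^2 * x^12 + 14080 * w^2 * x^11 - 5900 * w^2 *
        x^10 - 1860 * w^2 * x^9 - 56250 * w * x^16 + 11625 * w * x^15 + 81665 * w * x^14 -
        17197 * w * x^13 - 28837 * w * x^12 + 5451 * w * x^11 + 3301 * w * x^10 + 62500 *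
        x^17 + 45000 * x^16 - 76200 * x^15 - 26992 * x^14 + 38798 * x^13 + 3772 * x^12 -
        3318 * x^11) * hE
  have r5 : N ^ 5 = -1562500 * w^4 * y * x^21 + 2593750 * w^4 * y * x^20 - 802000 * w^4 * y * x^19 -
        426840 * w^4 * y * x^18 + 195495 * w^4 * y * x^17 + 2255 * w^4 * y * x^16 + 1953125
        * w^4 * x^23 - 2500000 * w^4 * x^22 - 1200000 * w^4 * x^21 + 3182975 * w^4 * x^20 -
        995240 * w^4 * x^19 - 429095 * w^4 * x^18 + 195495 * w^4 * x^17 + 2255 * w^4 * x^16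
        + 1953125 * w^3 * y * x^22 - 1796875 * w^3 * y * x^21 - 293750 * w^3 * y * x^20 +
        686650 * w^3 * y * x^19 - 109100 * w^3 * y * x^18 - 20460 * w^3 * y * x^17 - 1171875
        * w^3 * x^23 + 3562500 * w^3 * x^22 - 2520250 * w^3 * x^21 - 238220 * w^3 * x^20 +
        707110 * w^3 * x^19 - 109100 * w^3 * x^18 - 20460 * w^3 * x^17 - 781250 * w^2 * y *
        x^22 + 1359375 * w^2 * y * x^21 - 592250 * w^2 * y * x^20 - 18805 * w^2 * y * x^19 +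
        33110 * w^2 * y * x^18 + 1953125 * w^2 * x^24 - 2968750 * w^2 * x^23 + 534375 * w^2
        * x^22 + 1322650 * w^2 * x^21 - 645820 * w^2 * x^20 - 18805 * w^2 * x^19 + 33110 *
        w^2 * x^18 + 1953125 * w * y * x^23 - 2109375 * w * y * x^22 + 456250 * w * y * x^21
        + 149725 * w * y * x^20 - 30855 * w * y * x^19 - 390625 * w * x^24 + 1859375 * w *
        x^23 - 1669875 * w * x^22 + 293865 * w * x^21 + 147470 * w * x^20 - 30855 * w * x^19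
        + 1953125 * x^25 - 3125000 * x^24 + 1381250 * x^23 + 193250 * x^22 - 211584 * x^21 +
        19075 * x^20 := by
    rw [pow_succ, r4, hN]
    linear_combination (-625000 * w^3 * y * x^19 + 859375 * w^3 * y * x^18 + 63250 * w^3 * y * x^17 - 533234
        * w^3 * y * x^16 + 175340 * w^3 * y * x^15 + 43458 * w^3 * y * x^14 - 24744 * w^3 *
        y * x^13 + 2571 * w^3 * y * x^12 + 390625 * w^3 * x^21 - 203125 * w^3 * x^20 -
        1220250 * w^3 * x^19 + 1467290 * w^3 * x^18 - 38746 * w^3 * x^17 - 604007 * w^3 *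
        x^16 + 202655 * w^3 * x^15 + 40887 * w^3 * x^14 - 24744 * w^3 * x^13 + 2571 * w^3 *
        x^12 + 781250 * w^2 * y * x^20 - 78125 * w^2 * y * x^19 - 1430500 * w^2 * y * x^18 +
        817645 * w^2 * y * x^17 + 290152 * w^2 * y * x^16 - 205218 * w^2 * y * x^15 - 11759
        * w^2 * y * x^14 + 7319 * w^2 * y * x^13 - 1093750 * w^2 * x^21 + 2421875 * w^2 *
        x^20 - 445875 * w^2 * x^19 - 1899473 * w^2 * x^18 + 1003785 * w^2 * x^17 + 309230 *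
        w^2 * x^16 - 212537 * w^2 * x^15 - 11759 * w^2 * x^14 + 7319 * w^2 * x^13 - 1406250
        * w * y * x^20 + 1912500 * w * y * x^19 + 40125 * w * y * x^18 - 802842 * w * y *
        x^17 + 152210 * w * y * x^16 + 72966 * w * y * x^15 - 7803 * w * y * x^14 + 1171875
        * w * x^22 - 921875 * w * x^21 - 2221375 * w * x^20 + 2778980 * w * x^19 - 31316 * w
        * x^18 - 883611 * w * x^17 + 160013 * w * x^16 + 72966 * w * x^15 - 7803 * w * x^14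
        + 1562500 * y * x^21 - 906250 * y * x^20 - 1428500 * y * x^19 + 1239460 * y * x^18 +
        24372 * y * x^17 - 162391 * y * x^16 + 12447 * y * x^15 - 1562500 * x^22 + 4031250 *
        x^21 - 1946500 * x^20 - 1627710 * x^19 + 1414298 * x^18 + 11925 * x^17 - 162391 *
        x^16 + 12447 * x^15) * hw +
      (250000 * w^8 * x^17 - 397500 * w^8 * x^16 + 120710 * w^8 * x^15 + 48600 * w^8 * x^14
        - 24744 * w^8 * x^13 + 2571 * w^8 * x^12 - 625000 * w^7 * x^18 + 496875 * w^7 * x^17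
        + 245375 * w^7 * x^16 - 190580 * w^7 * x^15 - 11759 * w^7 * x^14 + 7319 * w^7 * x^13
        + 390625 * w^6 * x^19 + 250000 * w^6 * x^18 - 625875 * w^6 * x^17 + 129285 * w^6 *
        x^16 + 72966 * w^6 * x^15 - 7803 * w^6 * x^14 - 937500 * w^5 * x^19 + 956250 * w^5 *
        x^18 - 3000 * w^5 * x^17 - 157249 * w^5 * x^16 + 12447 * w^5 * x^15 + 781250 * w^4 *
        x^20 - 234375 * w^4 * x^19 - 354875 * w^4 * x^18 + 137695 * w^4 * x^17 + 10711 * w^4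
        * x^16 - 937500 * w^3 * x^20 + 575000 * w^3 * x^19 + 856875 * w^3 * x^18 - 483861 *
        w^3 * x^17 - 357894 * w^3 * x^16 + 218798 * w^3 * x^15 + 18714 * w^3 * x^14 - 22173
        * w^3 * x^13 + 2571 * w^3 * x^12 + 1171875 * w^2 * x^21 + 406250 * w^2 * x^20 -
        1487625 * w^2 * x^19 - 596650 * w^2 * x^18 + 1107797 * w^2 * x^17 + 84934 * w^2 *
        x^16 - 216977 * w^2 * x^15 - 4440 * w^2 * x^14 + 7319 * w^2 * x^13 - 1406250 * w *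
        x^21 + 506250 * w * x^20 + 1952625 * w * x^19 - 762717 * w * x^18 - 650632 * w *
        x^17 + 225176 * w * x^16 + 65163 * w * x^15 - 7803 * w * x^14 + 1562500 * x^22 +
        656250 * x^21 - 2334750 * x^20 - 189040 * x^19 + 1263832 * x^18 - 138019 * x^17 -
        149944 * x^16 + 12447 * x^15) * hE
  have h4 := pow_ne_zero 4 h0
  refine ⟨N / x ^ 4, M / x ^ 4, ?_, ?_⟩
  · unfold OnE'
    field_simp
    linear_combination x ^ 4 * s2 + x ^ 8 * hM - r3 + x ^ 4 * r2 + 10 * x ^ 8 * hN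
  · simp only [hatNum, hatDen]
    field_simp
    linear_combination 25 * x ^ 5 * r4 + 50 * x ^ 9 * r3 - 265 * x ^ 13 * r2 - 290 * x ^ 17 * hN -
      (r5 + 10 * x ^ 4 * r4 + 45 * x ^ 8 * r3 - 400 * x ^ 12 * r2 - 845 * x ^ 16 * hN)

end FLTAgent.SmallCurves.X1Eleven
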