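import Fermat.Agent.SmallCurves.X1Eleven.Fibre
import Fermat.Agent.SmallCurves.X1Eleven.Lift

/-!
The rational points of the two curves of conductor eleven joined by the five-isogeny, by descent
at the places `5` and `11`.
-/

set_option autoImplicit false

namespace FLTAgent.SmallCurves.X1Eleven

instance fact_five : Fact (Nat.Prime 5) := ⟨by norm_num⟩

instance fact_eleven : Fact (Nat.Prime 11) := ⟨by norm_num⟩

/-- The pole order at `5`. -/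
def pole (x : ℚ) : ℕ := padicValNat 5 x.den

lemma five_dvd_den_iff {x : ℚ} : (5 : ℕ) ∣ x.den ↔ pole x ≠ 0 := by
  rw [pole, Ne, padicValNat.eq_zero_iff]
  simp [x.den_ne_zero]

lemma num_of_five_dvd_den {x : ℚ} (h : (5 : ℕ) ∣ x.den) : ¬ (5 : ℤ) ∣ x.num := by
  intro hn
  have h2 : (5 : ℕ) ∣ x.num.natAbs := Int.natCast_dvd.mp hn
  have := Nat.dvd_gcd h2 h
  rw [x.reduced.gcd_eq_one] at this
  norm_num at this

lemma den_not_dvd {x : ℚ} {P Q : ℤ} (hQ : ¬ (5 : ℤ) ∣ Q) (h : x = (P : ℚ) / Q) :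
    ¬ (5 : ℕ) ∣ x.den := by
  intro hd
  refine hQ ((Int.natCast_dvd_natCast.mpr hd).trans ?_)
  rw [h, ← Rat.divInt_eq_div]
  exact Rat.den_dvd P Q

lemma pole_eq {x : ℚ} {P Q : ℤ} (hP : ¬ (5 : ℤ) ∣ P) (hQ : Q ≠ 0) (h : x = (P : ℚ) / Q)
    (hd : (5 : ℤ) ∣ Q) : (5 : ℕ) ∣ x.den ∧ pole x = padicValInt 5 Q := by
  have hP0 : P ≠ 0 := fun e => hP (e ▸ dvd_zero _)
  have hc : x.num * Q = P * (x.den : ℤ) := by
    have e : (x.num : ℚ) * (Q : ℚ) = (P : ℚ) * (x.den : ℚ) := by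
      rw [← Rat.mul_den_eq_num x, h]; field_simp
    exact_mod_cast e
  have h5 : Prime (5 : ℤ) := Nat.prime_iff_prime_int.mp (by norm_num : Nat.Prime 5)
  have hden : (5 : ℕ) ∣ x.den := Int.natCast_dvd_natCast.mp
    ((h5.dvd_or_dvd (hc ▸ dvd_mul_of_dvd_right hd x.num : (5 : ℤ) ∣ P * x.den)).resolve_left hP)
  refine ⟨hden, ?_⟩
  have hn := num_of_five_dvd_den hden
  have hn0 : x.num ≠ 0 := fun e => hn (e ▸ dvd_zero _)
  have := congrArg (padicValInt 5) hc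
  rw [padicValInt.mul hn0 hQ, padicValInt.mul hP0 (by exact_mod_cast x.den_ne_zero),
    padicValInt.eq_zero_of_not_dvd hn, padicValInt.eq_zero_of_not_dvd hP,
    padicValInt.of_nat] at this
  rw [pole]; omega

/-- A rational point in lowest terms. -/
lemma exists_repr (A B : ℤ) {x y : ℚ} (h : y ^ 2 + y = x ^ 3 - x ^ 2 + A * x + B) :
    ∃ m n e : ℤ, 0 < e ∧ IsCoprime m e ∧ x = m / (e : ℚ) ^ 2 ∧ y = n / (e : ℚ) ^ 3 ∧
      n ^ 2 + n * e ^ 3 = m ^ 3 - m ^ 2 * e ^ 2 + A * m * e ^ 4 + B * e ^ 6 := by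
  have hx : x * x.den = x.num := Rat.mul_den_eq_num x
  have hy : y * y.den = y.num := Rat.mul_den_eq_num y
  obtain ⟨m, hm⟩ : ∃ m, m = x.num := ⟨_, rfl⟩
  obtain ⟨n, hn⟩ : ∃ n, n = y.num := ⟨_, rfl⟩
  obtain ⟨q, hq⟩ : ∃ q : ℤ, q = (x.den : ℤ) := ⟨_, rfl⟩
  obtain ⟨s, hs⟩ : ∃ s : ℤ, s = (y.den : ℤ) := ⟨_, rfl⟩
  have e0 : (n ^ 2 + n * s) * q ^ 3 =
      (m ^ 3 - m ^ 2 * q + A * m * q ^ 2 + B * q ^ 3) * s ^ 2 := by
    have : ((n : ℚ) ^ 2 + n * s) * q ^ 3 =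
        ((m : ℚ) ^ 3 - m ^ 2 * q + A * m * q ^ 2 + B * q ^ 3) * s ^ 2 := by
      rw [hm, hn, hq, hs]; push_cast; rw [← hx, ← hy]
      linear_combination ((x.den : ℚ) ^ 3 * (y.den : ℚ) ^ 2) * h
    exact_mod_cast this
  have hmq : IsCoprime m q := by
    rw [hm, hq]; exact Int.isCoprime_iff_gcd_eq_one.mpr (by simpa [Int.gcd] using x.reduced.gcd_eq_one)
  have hns : IsCoprime n s := by
    rw [hn, hs]; exact Int.isCoprime_iff_gcd_eq_one.mpr (by simpa [Int.gcd] using y.reduced.gcd_eq_one)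
  have c1 : IsCoprime (s ^ 2) (n ^ 2 + n * s) := by
    refine IsCoprime.pow_left ?_
    have := (hns.symm.pow_right (n := 2)).add_mul_left_right n
    rwa [mul_comm s n] at this
  have c2 : IsCoprime (q ^ 3) (m ^ 3 - m ^ 2 * q + A * m * q ^ 2 + B * q ^ 3) := by
    refine IsCoprime.pow_left ?_
    have := (hmq.symm.pow_right (n := 3)).add_mul_left_right (-m ^ 2 + A * m * q + B * q ^ 2)
    rwa [show m ^ 3 + q * (-m ^ 2 + A * m * q + B * q ^ 2) =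
      m ^ 3 - m ^ 2 * q + A * m * q ^ 2 + B * q ^ 3 by ring] at this
  have d1 : s ^ 2 ∣ q ^ 3 := c1.dvd_of_dvd_mul_left (e0 ▸ dvd_mul_left _ _)
  have d2 : q ^ 3 ∣ s ^ 2 := c2.dvd_of_dvd_mul_left (e0.symm ▸ dvd_mul_left _ _)
  rw [hq, hs] at d1 d2
  have hqs : x.den ^ 3 = y.den ^ 2 := Nat.dvd_antisymm (by exact_mod_cast d2) (by exact_mod_cast d1)
  obtain ⟨e, he, he'⟩ : ∃ e, x.den = e ^ 2 ∧ y.den = e ^ 3 :=
    Nat.exists_eq_pow_of_exponent_coprime_of_pow_eq_pow rfl hqs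
  have hepos : 0 < e := by
    rcases Nat.eq_zero_or_pos e with rfl | h'
    · exact absurd (by simp at he) x.den_ne_zero
    · exact h'
  refine ⟨m, n, e, by exact_mod_cast hepos, ?_, ?_, ?_, ?_⟩
  · refine (IsCoprime.pow_right_iff two_pos).mp ?_
    rw [show ((e : ℤ)) ^ 2 = q by rw [hq, he]; push_cast; ring]
    exact hmq
  · rw [show ((e : ℤ) : ℚ) ^ 2 = (x.den : ℚ) by rw [he]; push_cast; ring, hm]
    exact (Rat.num_div_den x).symm
  · rw [show ((e : ℤ) : ℚ) ^ 3 = (y.den : ℚ) by rw [he']; push_cast; ring, hn]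
    exact (Rat.num_div_den y).symm
  · have hq0 : q ^ 3 ≠ 0 := by rw [hq]; exact pow_ne_zero 3 (by exact_mod_cast x.den_ne_zero)
    have eq1 : q = (e : ℤ) ^ 2 := by rw [hq, he]; push_cast; ring
    have eq2 : s = (e : ℤ) ^ 3 := by rw [hs, he']; push_cast; ring
    apply mul_right_cancel₀ hq0
    rw [eq1, eq2] at e0
    rw [eq1]
    linear_combination e0

lemma coprime_not_dvd {p m e : ℤ} (hp : Prime p) (h : IsCoprime m e) (he : p ∣ e) : ¬ p ∣ m :=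
  fun hm => hp.not_isUnit (h.isUnit_of_dvd' hm he)

lemma prime_five : Prime (5 : ℤ) := Nat.prime_iff_prime_int.mp (by norm_num : Nat.Prime 5)

lemma prime_eleven : Prime (11 : ℤ) := Nat.prime_iff_prime_int.mp (by norm_num : Nat.Prime 11)

lemma five_not_dvd_iff {z : ℤ} : ¬ (5 : ℤ) ∣ z ↔ (z : ZMod 5) ≠ 0 := by
  rw [Ne, ZMod.intCast_zmod_eq_zero_iff_dvd]; rfl

lemma eleven_dvd_iff {z : ℤ} : (11 : ℤ) ∣ z ↔ (z : ZMod 11) = 0 := by
  rw [ZMod.intCast_zmod_eq_zero_iff_dvd]; rfl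

/-- No rational two-torsion. -/
lemma two_mul_add_one_ne {X Y : ℚ} (h : OnE' X Y) : 2 * Y + 1 ≠ 0 := by
  intro h0
  obtain ⟨m, n, e, he, hc, -, hy, heq⟩ :=
    exists_repr (-10) (-20) (x := X) (y := Y) (by unfold OnE' at h; push_cast; linear_combination h)
  have he' : (e : ℚ) ≠ 0 := by exact_mod_cast he.ne'
  have hn : 2 * n + e ^ 3 = 0 := by
    rw [hy] at h0; field_simp at h0
    have : (2 * n + e ^ 3 : ℚ) = 0 := by linear_combination h0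
    exact_mod_cast this
  have h3 := congrArg (Int.cast : ℤ → ZMod 3) heq
  have h3' := congrArg (Int.cast : ℤ → ZMod 3) hn
  push_cast at h3 h3'
  have key : ∀ m n e : ZMod 3, n ^ 2 + n * e ^ 3 = m ^ 3 - m ^ 2 * e ^ 2 + -10 * m * e ^ 4 + -20 * e ^ 6 →
      2 * n + e ^ 3 = 0 → m = 0 ∧ e = 0 := by decide
  obtain ⟨k1, k2⟩ := key _ _ _ h3 h3'
  rw [ZMod.intCast_zmod_eq_zero_iff_dvd] at k1 k2
  exact coprime_not_dvd (Nat.prime_iff_prime_int.mp (by norm_num : Nat.Prime 3)) hc k2 k1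

/-- `xy + y + x²` is a fifth power at a rational point. -/
lemma exists_fifth_root {x y : ℚ} (h : OnE x y) :
    ∃ w : ℚ, w ^ 5 = x * y + y + x ^ 2 := by
  obtain ⟨m, n, e, he, hc, hx, hy, heq⟩ :=
    exists_repr 0 0 (x := x) (y := y) (by unfold OnE at h; push_cast; linear_combination h)
  have hprod : (m * n + e ^ 2 * n + m ^ 2 * e) * ((-n - e ^ 3) * (m + e ^ 2) + m ^ 2 * e) =
      (-m) ^ 5 := by
    linear_combination (-(m + e ^ 2) ^ 2) * heq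
  have hcop : IsCoprime (m * n + e ^ 2 * n + m ^ 2 * e)
      ((-n - e ^ 3) * (m + e ^ 2) + m ^ 2 * e) := by
    refine isCoprime_of_prime_dvd ?_ fun d hd h1 h2 => ?_
    · rintro ⟨h1, h2⟩
      have hm : m = 0 := neg_eq_zero.mp (pow_eq_zero_iff (by norm_num : 5 ≠ 0) |>.mp
        (by rw [← hprod, h1, zero_mul]))
      subst hm
      simp only [zero_mul, zero_add, add_zero, zero_pow (two_ne_zero)] at h1 h2
      have he2 : e ^ 2 ≠ 0 := pow_ne_zero 2 he.ne'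
      have := (mul_eq_zero.mp h1).resolve_left he2
      subst this
      simp [he.ne'] at h2
    · have hm : d ∣ m := by
        have : d ∣ (-m) ^ 5 := hprod ▸ dvd_mul_of_dvd_left h1 _
        exact dvd_neg.mp (hd.dvd_of_dvd_pow this)
      have hde : ¬ d ∣ e := fun h' => coprime_not_dvd hd hc h' hm
      have hn : d ∣ n := by
        have : d ∣ e ^ 2 * n := by
          have := dvd_sub h1 (dvd_mul_of_dvd_left hm (n + m * e))
          rwa [show m * n + e ^ 2 * n + m ^ 2 * e - m * (n + m * e) = e ^ 2 * n by ring] at this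
        exact (hd.dvd_or_dvd this).resolve_left fun h' => hde (hd.dvd_of_dvd_pow h')
      refine hde (hd.dvd_of_dvd_pow (n := 5) ?_)
      have := dvd_sub (dvd_mul_of_dvd_left hm ((-n - e ^ 3) + m * e))
        (dvd_add h2 (dvd_mul_of_dvd_left hn (e ^ 2)))
      convert this using 1; ring
  obtain ⟨ν, hν⟩ := Int.eq_pow_of_mul_eq_pow_odd_left hcop (by decide) hprod
  refine ⟨ν / e, ?_⟩
  have hν' : ((m : ℚ) * n + e ^ 2 * n + m ^ 2 * e) = (ν : ℚ) ^ 5 := by exact_mod_cast hν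
  have he' : (e : ℚ) ≠ 0 := by exact_mod_cast he.ne'
  rw [hx, hy]
  field_simp
  linear_combination -hν'

/-- The chord through two points of the target. -/
lemma chord {X Y X₀ Y₀ : ℚ} (h : OnE' X Y) (h0 : OnE' X₀ Y₀) (hne : X ≠ X₀) :
    ∃ Y₂, OnE' (((Y - Y₀) / (X - X₀)) ^ 2 + 1 - X - X₀) Y₂ := by
  obtain ⟨l, rfl⟩ : ∃ l, Y₀ = Y + l * (X₀ - X) :=
    ⟨(Y₀ - Y) / (X₀ - X), by rw [div_mul_cancel₀ _ (sub_ne_zero.mpr hne.symm)]; ring⟩
  have hd : X - X₀ ≠ 0 := sub_ne_zero.mpr hne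
  rw [show (Y - (Y + l * (X₀ - X))) / (X - X₀) = l by field_simp; ring]
  refine ⟨-l * (l ^ 2 + 1 - X - X₀ - X) - Y - 1, ?_⟩
  unfold OnE' at *
  apply mul_left_cancel₀ hd
  linear_combination (l ^ 2 + 1 - X - X₀ - X₀) * h - (l ^ 2 + 1 - X - X₀ - X) * h0

/-- An affine rational point of the source moves to one with nonintegral abscissa in its fibre. -/
lemma exists_pole_in_fibre {x y : ℚ} (h : OnE x y) (h0 : x ≠ 0) (h1 : x - 1 ≠ 0) :
    ∃ x' y', OnE x' y' ∧ x' ≠ 0 ∧ x' - 1 ≠ 0 ∧ (5 : ℕ) ∣ x'.den ∧ psiX x' = psiX x := by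
  by_cases hd : (5 : ℕ) ∣ x.den
  · exact ⟨x, y, h, h0, h1, hd, rfl⟩
  obtain ⟨m, n, e, he, hc, hx, hy, heq⟩ :=
    exists_repr 0 0 (x := x) (y := y) (by unfold OnE at h; push_cast; linear_combination h)
  have he' : (e : ℚ) ≠ 0 := by exact_mod_cast he.ne'
  have hm0 : (m : ℚ) ≠ 0 := fun hz => h0 (by rw [hx, hz, zero_div])
  have hm1 : (m : ℚ) - (e : ℚ) ^ 2 ≠ 0 := fun hz => h1 (by
    rw [hx, sub_eq_zero.mp hz, div_self (pow_ne_zero 2 he'), sub_self])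
  have he5 : ¬ (5 : ℤ) ∣ e := by
    intro h5
    refine hd (pole_eq (coprime_not_dvd prime_five hc h5) (pow_ne_zero 2 he.ne') ?_
      (dvd_pow h5 two_ne_zero)).1
    rw [hx]; push_cast; rfl
  have z := congrArg (Int.cast : ℤ → ZMod 5) heq
  push_cast at z
  rw [five_not_dvd_iff] at he5
  have key : ∀ m n e : ZMod 5, n ^ 2 + n * e ^ 3 = m ^ 3 - m ^ 2 * e ^ 2 + 0 * m * e ^ 4 + 0 * e ^ 6 →
      e ≠ 0 → m = 0 ∧ (n = 0 ∨ n = -e ^ 3) ∨ m = e ^ 2 ∧ (n = 0 ∨ n = -e ^ 3) := by decide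
  have e3 : (e : ZMod 5) ^ 3 ≠ 0 := pow_ne_zero 3 he5
  have e2 : (e : ZMod 5) ^ 2 ≠ 0 := pow_ne_zero 2 he5
  have t1case : ∀ n' : ℤ, y = n' / (e : ℚ) ^ 3 ∨ -y - 1 = n' / (e : ℚ) ^ 3 → (m : ZMod 5) = 0 →
      (n' : ZMod 5) ≠ 0 → ∃ x' y', OnE x' y' ∧ x' ≠ 0 ∧ x' - 1 ≠ 0 ∧ (5 : ℕ) ∣ x'.den ∧
        psiX x' = psiX x := by
    intro n' hy' hm hn
    obtain ⟨y₁, hy₁, hE₁⟩ : ∃ y₁, y₁ = (n' : ℚ) / (e : ℚ) ^ 3 ∧ OnE x y₁ := by
      rcases hy' with hy' | hy'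
      · exact ⟨y, hy', h⟩
      · exact ⟨-y - 1, hy', h.neg⟩
    obtain ⟨a1, a2, a3, a4, -⟩ := t1_spec hE₁ h0 h1
    refine ⟨_, _, a1, a2, a3, (pole_eq (P := -n' * e) (Q := m ^ 2) ?_ ?_ ?_ ?_).1, a4⟩
    · rw [five_not_dvd_iff]; push_cast; exact mul_ne_zero (neg_ne_zero.mpr hn) he5
    · exact pow_ne_zero 2 (by exact_mod_cast hm0)
    · rw [t1X, hy₁, hx]; push_cast; field_simp
    · exact dvd_pow ((ZMod.intCast_zmod_eq_zero_iff_dvd m 5).mp hm) two_ne_zero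
  have t3case : ∀ n' : ℤ, y = n' / (e : ℚ) ^ 3 ∨ -y - 1 = n' / (e : ℚ) ^ 3 →
      (m : ZMod 5) = (e : ZMod 5) ^ 2 →
      (n' : ZMod 5) ≠ 0 → ∃ x' y', OnE x' y' ∧ x' ≠ 0 ∧ x' - 1 ≠ 0 ∧ (5 : ℕ) ∣ x'.den ∧
        psiX x' = psiX x := by
    intro n' hy' hm hn
    obtain ⟨y₁, hy₁, hE₁⟩ : ∃ y₁, y₁ = (n' : ℚ) / (e : ℚ) ^ 3 ∧ OnE x y₁ := by
      rcases hy' with hy' | hy'
      · exact ⟨y, hy', h⟩
      · exact ⟨-y - 1, hy', h.neg⟩
    obtain ⟨a1, a2, a3, a4, -⟩ := t3_spec hE₁ h0 h1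
    refine ⟨_, _, a1, a2, a3,
      (pole_eq (P := n' ^ 2 - m * (m - e ^ 2) ^ 2) (Q := e ^ 2 * (m - e ^ 2) ^ 2) ?_ ?_ ?_ ?_).1, a4⟩
    · rw [five_not_dvd_iff]; push_cast; rw [hm, sub_self]; simpa using hn
    · exact mul_ne_zero (pow_ne_zero 2 he.ne') (pow_ne_zero 2 (by exact_mod_cast hm1))
    · rw [t3X, hy₁, hx]; push_cast; field_simp
    · refine dvd_mul_of_dvd_right (dvd_pow ((ZMod.intCast_zmod_eq_zero_iff_dvd _ 5).mp ?_) two_ne_zero) _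
      push_cast; rw [hm, sub_self]
  have hyn : -y - 1 = ((-n - e ^ 3 : ℤ) : ℚ) / (e : ℚ) ^ 3 := by
    rw [hy]; push_cast; field_simp
  rcases key _ _ _ z he5 with ⟨hm, hn | hn⟩ | ⟨hm, hn | hn⟩
  · exact t1case _ (Or.inr hyn) hm (by push_cast; rw [hn]; simpa using e3)
  · exact t1case _ (Or.inl hy) hm (by rw [hn]; simpa using e3)
  · exact t3case _ (Or.inr hyn) hm (by push_cast; rw [hn]; simpa using e3)
  · exact t3case _ (Or.inl hy) hm (by rw [hn]; simpa using e3)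

/-- The pole of the image of a nonintegral point. -/
lemma pole_psiX {x : ℚ} (h : (5 : ℕ) ∣ x.den) :
    (5 : ℕ) ∣ (psiX x).den ∧ pole (psiX x) = pole x := by
  have hn := num_of_five_dvd_den h
  obtain ⟨p, hp⟩ : ∃ p, p = x.num := ⟨_, rfl⟩
  obtain ⟨q, hq⟩ : ∃ q : ℤ, q = (x.den : ℤ) := ⟨_, rfl⟩
  have hq5 : (5 : ℤ) ∣ q := hq ▸ Int.natCast_dvd_natCast.mpr h
  have z : (q : ZMod 5) = 0 := (ZMod.intCast_zmod_eq_zero_iff_dvd q 5).mpr hq5
  rw [five_not_dvd_iff, ← hp] at hn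
  have hq0 : q ≠ 0 := by rw [hq]; exact_mod_cast x.den_ne_zero
  have hx : x = (p : ℚ) / q := by rw [hp, hq]; push_cast; exact (Rat.num_div_den x).symm
  have hu : ¬ (5 : ℤ) ∣ (p * (p - q)) ^ 2 := by
    rw [five_not_dvd_iff]; push_cast; rw [z, sub_zero]; simp [hn]
  have hu0 : (p * (p - q)) ^ 2 ≠ 0 := fun h' => hu (by rw [h']; exact dvd_zero _)
  obtain ⟨hd, hv⟩ := pole_eq (x := psiX x) (P := p ^ 5 - 2 * p ^ 4 * q + 3 * p ^ 3 * q ^ 2 - 2 * p * q ^ 4 + q ^ 5)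
    (Q := q * (p * (p - q)) ^ 2) (by rw [five_not_dvd_iff]; push_cast; rw [z]; simp [hn])
    (mul_ne_zero hq0 hu0) (by
      rw [hx, psiX_div (by exact_mod_cast hq0)]; push_cast; rfl) (dvd_mul_of_dvd_left hq5 _)
  refine ⟨hd, ?_⟩
  rw [hv, padicValInt.mul hq0 hu0, padicValInt.eq_zero_of_not_dvd hu,
    hq, pole, padicValInt.of_nat, add_zero]

/-- A point of the target off the node modulo `11` is the image of a nonintegral point. -/
lemma good_spec {X Y : ℚ} (h : OnE' X Y) (hX : ¬ (11 : ℤ) ∣ (X - 16).num) :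
    (5 : ℕ) ∣ X.den ∧
      ∃ x y, OnE x y ∧ x ≠ 0 ∧ x - 1 ≠ 0 ∧ (5 : ℕ) ∣ x.den ∧ pole X = pole x := by
  obtain ⟨q, r, hE, h0, h1, hq⟩ := exists_preimage h (two_mul_add_one_ne h) hX
  obtain ⟨x, y, hE', h0', h1', hd, hpX⟩ := exists_pole_in_fibre hE h0 h1
  obtain ⟨a, b⟩ := pole_psiX hd
  rw [hpX, hq] at a b
  exact ⟨a, x, y, hE', h0', h1', hd, b⟩

lemma num_not_dvd {z : ℚ} {P Q : ℤ} (hP : ¬ (11 : ℤ) ∣ P) (hQ : Q ≠ 0)
    (h : z = (P : ℚ) / Q) : ¬ (11 : ℤ) ∣ z.num := by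
  intro hd
  refine hP (hd.trans ?_)
  rw [h, ← Rat.divInt_eq_div]
  exact Rat.num_dvd P hQ

/-- A point on the node modulo `11` has a translate off it, integral at `5` if the point is not. -/
lemma exists_translate {X Y : ℚ} (h : OnE' X Y) (hn : (11 : ℤ) ∣ (X - 16).num) (h5 : X ≠ 5)
    (h16 : X ≠ 16) :
    ∃ X₂ Y₂ : ℚ, OnE' X₂ Y₂ ∧ ¬ (11 : ℤ) ∣ (X₂ - 16).num ∧
      ((5 : ℕ) ∣ X.den → ¬ (5 : ℕ) ∣ X₂.den) := by
  obtain ⟨m, n, e, he, hc, hx, hy, heq⟩ :=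
    exists_repr (-10) (-20) (x := X) (y := Y) (by unfold OnE' at h; push_cast; linear_combination h)
  have he' : (e : ℚ) ≠ 0 := by exact_mod_cast he.ne'
  -- integrality at five of any translate
  have five : ∀ X₀ Y₀ : ℤ, OnE' (X₀ : ℚ) Y₀ → (5 : ℕ) ∣ X.den →
      ¬ (5 : ℕ) ∣ (((Y - Y₀) / (X - X₀)) ^ 2 + 1 - X - X₀).den := by
    intro X₀ Y₀ h0 hd
    have he5 : (5 : ℤ) ∣ e := by
      by_contra h'
      refine den_not_dvd (P := m) (Q := e ^ 2) (fun h'' => h' (prime_five.dvd_of_dvd_pow h'')) ?_ hd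
      rw [hx]; push_cast; rfl
    have hm5 := coprime_not_dvd prime_five hc he5
    have hu : ¬ (5 : ℤ) ∣ (m - X₀ * e ^ 2) ^ 2 := fun h' => hm5 (by
      have := dvd_add (prime_five.dvd_of_dvd_pow h') (dvd_mul_of_dvd_right (dvd_pow he5 two_ne_zero) X₀)
      simpa using this)
    have hne : (m : ℚ) - X₀ * (e : ℚ) ^ 2 ≠ 0 := by
      intro h'
      have : m - X₀ * e ^ 2 = 0 := by exact_mod_cast h'
      exact hu (by rw [this]; simp)
    refine den_not_dvd (P := (2 * X₀ - 1) * (m * m) + (-(2 * Y₀) - 1) * (n * e) + (-10 - X₀ ^ 2) * m * e ^ 2 +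
      (Y₀ ^ 2 - 20) * e ^ 4 + (m - X₀ * e ^ 2) ^ 2 * (1 - X₀) ) (Q := (m - X₀ * e ^ 2) ^ 2)
      hu ?_
    have hq : (n : ℚ) ^ 2 + n * e ^ 3 = m ^ 3 - m ^ 2 * e ^ 2 + (-10) * m * e ^ 4 + (-20) * e ^ 6 := by
      exact_mod_cast heq
    have el : (Y - Y₀) / (X - X₀) = ((n : ℚ) - Y₀ * e ^ 3) / (e * (m - X₀ * e ^ 2)) := by
      rw [hx, hy, div_eq_div_iff (by
        rw [div_sub' (pow_ne_zero 2 he')]
        exact div_ne_zero (by rwa [mul_comm]) (pow_ne_zero 2 he')) (mul_ne_zero he' hne)]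
      field_simp
    rw [el, hx, div_pow]
    push_cast
    obtain ⟨d, hdd⟩ : ∃ d : ℚ, d = (m : ℚ) - X₀ * (e : ℚ) ^ 2 := ⟨_, rfl⟩
    rw [← hdd] at hne ⊢
    field_simp
    rw [hdd]
    linear_combination hq
  -- the node
  have hx16 : X - 16 = ((m - 16 * e ^ 2 : ℤ) : ℚ) / ((e ^ 2 : ℤ) : ℚ) := by
    rw [hx]; push_cast; field_simp
  have h11m : (11 : ℤ) ∣ m - 16 * e ^ 2 := by
    by_contra h'
    exact num_not_dvd h' (pow_ne_zero 2 he.ne') hx16 hn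
  have h11e : ¬ (11 : ℤ) ∣ e := fun h' => coprime_not_dvd prime_eleven hc h' (by
    have := dvd_add h11m (dvd_mul_of_dvd_right (dvd_pow h' two_ne_zero) (16 : ℤ))
    simpa using this)
  obtain ⟨a, ha⟩ := h11m
  obtain rfl : m = 16 * e ^ 2 + 11 * a := by linear_combination ha
  have h0 : (11 : ZMod 11) = 0 := by decide
  have h11c : (11 : ℤ) ∣ n - 60 * e ^ 3 := by
    have z := congrArg (Int.cast : ℤ → ZMod 11) heq
    push_cast at z
    rw [eleven_dvd_iff]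
    push_cast
    refine pow_eq_zero_iff two_ne_zero |>.mp ?_
    rw [show (11 : ZMod 11) = 0 by decide] at z
    linear_combination z + (-11 * n * e ^ 3 + 660 * (e : ZMod 11) ^ 6) * h0
  obtain ⟨c, hc'⟩ := h11c
  obtain rfl : n = 60 * e ^ 3 + 11 * c := by linear_combination hc'
  have hC : c * (c + 11 * e ^ 3) = a * (11 * a ^ 2 + 47 * a * e ^ 2 + 66 * e ^ 4) := by
    apply mul_left_cancel₀ (show (121 : ℤ) ≠ 0 by norm_num)
    linear_combination heq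
  rw [eleven_dvd_iff] at h11e
  have e6 : (e : ZMod 11) ^ 6 ≠ 0 := pow_ne_zero 6 h11e
  have hp : ∀ P Q X₀ Y₀ : ℤ, OnE' (X₀ : ℚ) Y₀ → X ≠ X₀ → (P : ZMod 11) ≠ 0 → Q ≠ 0 →
      ((Y - Y₀) / (X - X₀)) ^ 2 + 1 - X - X₀ - 16 = (P : ℚ) / Q →
      ∃ X₂ Y₂ : ℚ, OnE' X₂ Y₂ ∧ ¬ (11 : ℤ) ∣ (X₂ - 16).num ∧
        ((5 : ℕ) ∣ X.den → ¬ (5 : ℕ) ∣ X₂.den) := by
    intro P Q X₀ Y₀ h0 hne hP hQ hPQ
    obtain ⟨Y₂, h2⟩ := chord h h0 hne
    exact ⟨_, Y₂, h2, num_not_dvd (by rwa [eleven_dvd_iff]) hQ hPQ, five X₀ Y₀ h0⟩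
  have p5 : OnE' ((5 : ℤ) : ℚ) ((5 : ℤ) : ℚ) ∧ OnE' ((5 : ℤ) : ℚ) ((-6 : ℤ) : ℚ) ∧
      OnE' ((16 : ℤ) : ℚ) ((60 : ℤ) : ℚ) ∧ OnE' ((16 : ℤ) : ℚ) ((-61 : ℤ) : ℚ) := by
    refine ⟨?_, ?_, ?_, ?_⟩ <;> norm_num [OnE']
  have n5 : X ≠ ((5 : ℤ) : ℚ) := by exact_mod_cast h5
  have n16 : X ≠ ((16 : ℤ) : ℚ) := by exact_mod_cast h16
  have da : (a : ℚ) + (e : ℚ) ^ 2 ≠ 0 := fun h' => h5 (by
    rw [hx]; push_cast; rw [div_eq_iff (pow_ne_zero 2 he')]; linear_combination 11 * h')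
  have qa : e ^ 2 * (a + e ^ 2) ^ 2 ≠ 0 :=
    mul_ne_zero (pow_ne_zero 2 he.ne') (pow_ne_zero 2 (by exact_mod_cast da))
  have za := congrArg (Int.cast : ℤ → ZMod 11) hC
  push_cast at za
  by_cases ha0 : (a : ZMod 11) = 0
  · obtain ⟨a', rfl⟩ : (11 : ℤ) ∣ a := eleven_dvd_iff.mpr ha0
    obtain ⟨c', rfl⟩ : (11 : ℤ) ∣ c := by
      rw [eleven_dvd_iff]
      refine pow_eq_zero_iff two_ne_zero |>.mp ?_
      rw [ha0, show (11 : ZMod 11) = 0 by decide] at za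
      linear_combination za
    have hC' : c' * (c' + e ^ 3) = a' * (121 * a' ^ 2 + 47 * a' * e ^ 2 + 6 * e ^ 4) := by
      apply mul_left_cancel₀ (show (121 : ℤ) ≠ 0 by norm_num)
      linear_combination hC
    have ha' : (a' : ℚ) ≠ 0 := fun h' => h16 (by
      rw [hx]; push_cast; rw [h']; field_simp; ring)
    have qa' : e ^ 2 * a' ^ 2 ≠ 0 :=
      mul_ne_zero (pow_ne_zero 2 he.ne') (pow_ne_zero 2 (by exact_mod_cast ha'))
    by_cases h1 : ((c' : ZMod 11) ^ 2 - 47 * e ^ 2 * a' ^ 2 = 0)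
    · by_cases h2 : (((c' : ZMod 11) + e ^ 3) ^ 2 - 47 * e ^ 2 * a' ^ 2 = 0)
      · exfalso
        have hc5 : (c' : ZMod 11) = 5 * e ^ 3 := by
          have h3 : (e : ZMod 11) ^ 3 * (2 * c' + e ^ 3) = 0 := by linear_combination h2 - h1
          have h4 := (mul_eq_zero.mp h3).resolve_left (pow_ne_zero 3 h11e)
          linear_combination 6 * h4 - h0 * ((c' : ZMod 11) + e ^ 3)
        have za' := congrArg (Int.cast : ℤ → ZMod 11) hC'
        push_cast at za'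
        have hae : (a' : ZMod 11) = -(e : ZMod 11) ^ 2 := by
          rw [hc5] at za' h1
          have key : ∀ a e : ZMod 11, e ≠ 0 → (5 * e ^ 3) ^ 2 - 47 * e ^ 2 * a ^ 2 = 0 →
              5 * e ^ 3 * (5 * e ^ 3 + e ^ 3) = a * (121 * a ^ 2 + 47 * a * e ^ 2 + 6 * e ^ 4) →
              a = -e ^ 2 := by decide +kernel
          exact key _ _ h11e h1 za'
        obtain ⟨u, hu⟩ : (11 : ℤ) ∣ c' - 5 * e ^ 3 := by
          rw [eleven_dvd_iff]; push_cast; rw [hc5, sub_self]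
        obtain ⟨v, hv⟩ : (11 : ℤ) ∣ a' + e ^ 2 := by
          rw [eleven_dvd_iff]; push_cast; rw [hae]; ring
        obtain rfl : c' = 5 * e ^ 3 + 11 * u := by linear_combination hu
        obtain rfl : a' = -e ^ 2 + 11 * v := by linear_combination hv
        have hd : (11 : ℤ) ∣ e ^ 6 := by
          refine ⟨e ^ 6 + u ^ 2 + u * e ^ 3 - 25 * v * e ^ 4 + 316 * v ^ 2 * e ^ 2 - 1331 * v ^ 3, ?_⟩
          apply mul_left_cancel₀ (show (11 : ℤ) ≠ 0 by norm_num)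
          linear_combination -hC'
        exact e6 (by have := eleven_dvd_iff.mp hd; push_cast at this; exact this)
      · refine hp ((c' + e ^ 3) ^ 2 - (47 * e ^ 2 + 121 * a') * a' ^ 2) (e ^ 2 * a' ^ 2) 16 (-61)
          p5.2.2.2 n16 ?_ qa' ?_
        · push_cast; rw [show (121 : ZMod 11) = 0 by decide]; simpa using h2
        · rw [hx, hy]; push_cast; field_simp; ring
    · refine hp (c' ^ 2 - (47 * e ^ 2 + 121 * a') * a' ^ 2) (e ^ 2 * a' ^ 2) 16 60 p5.2.2.1 n16 ?_ qa' ?_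
      · push_cast; rw [show (121 : ZMod 11) = 0 by decide]; simpa using h1
      · rw [hx, hy]; push_cast; field_simp; ring
  · rw [show (11 : ZMod 11) = 0 by decide] at za
    have hz : ((c : ZMod 11) - 5 * a * e) * ((c : ZMod 11) + 5 * a * e) = 0 := by
      linear_combination za + h0 * (2 * (a : ZMod 11) ^ 2 * e ^ 2 + 6 * a * e ^ 4)
    rcases mul_eq_zero.mp hz with hz' | hz'
    · refine hp ((c + 6 * e ^ 3) ^ 2 - (36 * e ^ 2 + 11 * a) * (a + e ^ 2) ^ 2)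
        (e ^ 2 * (a + e ^ 2) ^ 2) 5 (-6) p5.2.1 n5 ?_ qa ?_
      · push_cast
        rw [sub_eq_zero.mp hz', show ((5 * (a : ZMod 11) * e + 6 * e ^ 3) ^ 2 -
          (36 * e ^ 2 + 11 * a) * (a + e ^ 2) ^ 2) = 10 * a * (e : ZMod 11) ^ 4 by
            linear_combination (-(a : ZMod 11) ^ 2 * e ^ 2 - 2 * a * e ^ 4 - a * (a + (e : ZMod 11) ^ 2) ^ 2) * h0]
        exact mul_ne_zero (mul_ne_zero (by decide) ha0) (pow_ne_zero 4 h11e)
      · have el : (Y - (((-6) : ℤ) : ℚ)) / (X - ((5 : ℤ) : ℚ)) =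
            ((c : ℚ) + 6 * e ^ 3) / (e * (a + e ^ 2)) := by
          rw [div_eq_div_iff (sub_ne_zero.mpr n5) (mul_ne_zero he' da), hx, hy]
          push_cast; field_simp; ring
        rw [el, hx]; push_cast; field_simp; ring
    · refine hp ((c + 5 * e ^ 3) ^ 2 - (36 * e ^ 2 + 11 * a) * (a + e ^ 2) ^ 2)
        (e ^ 2 * (a + e ^ 2) ^ 2) 5 5 p5.1 n5 ?_ qa ?_
      · push_cast
        rw [show (c : ZMod 11) = -(5 * a * e) by linear_combination hz',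
          show ((-(5 * (a : ZMod 11) * e) + 5 * e ^ 3) ^ 2 -
          (36 * e ^ 2 + 11 * a) * (a + e ^ 2) ^ 2) = 10 * a * (e : ZMod 11) ^ 4 by
            linear_combination (-(a : ZMod 11) ^ 2 * e ^ 2 - 12 * a * e ^ 4 - (e : ZMod 11) ^ 6 - a * (a + (e : ZMod 11) ^ 2) ^ 2) * h0]
        exact mul_ne_zero (mul_ne_zero (by decide) ha0) (pow_ne_zero 4 h11e)
      · have el : (Y - ((5 : ℤ) : ℚ)) / (X - ((5 : ℤ) : ℚ)) =
            ((c : ℚ) + 5 * e ^ 3) / (e * (a + e ^ 2)) := by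
          rw [div_eq_div_iff (sub_ne_zero.mpr n5) (mul_ne_zero he' da), hx, hy]
          push_cast; field_simp; ring
        rw [el, hx]; push_cast; field_simp; ring

/-- A point of the target nonintegral at `5` is off the node modulo `11`. -/
lemma good_of_pole {X Y : ℚ} (h : OnE' X Y) (hd : (5 : ℕ) ∣ X.den) :
    ¬ (11 : ℤ) ∣ (X - 16).num := by
  intro hn
  obtain ⟨X₂, Y₂, h2, hg, hi⟩ := exists_translate h hn (by rintro rfl; norm_num at hd)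
    (by rintro rfl; norm_num at hd)
  exact hi hd (good_spec h2 hg).1

/-- The pole drops. -/
lemma no_pole : ∀ k : ℕ, ∀ x y : ℚ, OnE x y → (5 : ℕ) ∣ x.den → pole x ≠ k := by
  intro k
  induction k using Nat.strong_induction_on with
  | _ k ih => ?_
  intro x y h hd hk
  have hn := num_of_five_dvd_den hd
  have h0 : x ≠ 0 := by rintro rfl; simp at hn
  obtain ⟨w, hw⟩ := exists_fifth_root h
  obtain ⟨X, Y, hXY, hmap⟩ := exists_lift h h0 hw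
  obtain ⟨p, hp⟩ : ∃ p, p = X.num := ⟨_, rfl⟩
  obtain ⟨q, hq⟩ : ∃ q : ℤ, q = (X.den : ℤ) := ⟨_, rfl⟩
  have hq0 : q ≠ 0 := by rw [hq]; exact_mod_cast X.den_ne_zero
  have hqQ : (q : ℚ) ≠ 0 := by exact_mod_cast hq0
  have hXpq : X = (p : ℚ) / q := by rw [hp, hq]; push_cast; exact (Rat.num_div_den X).symm
  obtain ⟨N, hN⟩ : ∃ N : ℤ, N = p ^ 5 + 10 * p ^ 4 * q + 45 * p ^ 3 * q ^ 2 - 400 * p ^ 2 * q ^ 3 -
      845 * p * q ^ 4 - 775 * q ^ 5 := ⟨_, rfl⟩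
  obtain ⟨D, hD⟩ : ∃ D : ℤ, D = 5 * p ^ 2 + 5 * p * q - 29 * q ^ 2 := ⟨_, rfl⟩
  have hrel : x * ((q * D ^ 2 : ℤ) : ℚ) = (N : ℚ) := by
    rw [hN, hD]
    rw [hXpq, hatNum, hatDen] at hmap
    push_cast
    field_simp at hmap
    linear_combination hmap
  by_cases hdX : (5 : ℕ) ∣ X.den
  · have hpn := num_of_five_dvd_den hdX
    rw [← hp] at hpn
    have hq5 : (5 : ℤ) ∣ q := hq ▸ Int.natCast_dvd_natCast.mpr hdX
    obtain ⟨q', hq'⟩ := hq5
    obtain ⟨D', hD'⟩ : ∃ D', D' = p ^ 2 + 5 * p * q' - 145 * q' ^ 2 := ⟨_, rfl⟩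
    have hDD : D = 5 * D' := by rw [hD, hD', hq']; ring
    have hD5 : ¬ (5 : ℤ) ∣ D' := by
      rw [five_not_dvd_iff, hD']; push_cast
      rw [show (145 : ZMod 5) = 0 by decide, show (5 : ZMod 5) = 0 by decide]
      rw [five_not_dvd_iff] at hpn
      simp [hpn]
    have hD0 : D' ≠ 0 := fun e => hD5 (e ▸ dvd_zero _)
    have hQ : q * D ^ 2 ≠ 0 := mul_ne_zero hq0 (pow_ne_zero 2 (by rw [hDD]; simp [hD0]))
    have hN5 : ¬ (5 : ℤ) ∣ N := by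
      rw [five_not_dvd_iff, hN, hq']; push_cast
      rw [show (5 : ZMod 5) = 0 by decide]
      rw [five_not_dvd_iff] at hpn
      simp [hpn]
    obtain ⟨-, hv⟩ := pole_eq (x := x) hN5 hQ (by rw [eq_div_iff (by exact_mod_cast hQ)]; exact hrel)
      (dvd_mul_of_dvd_left ⟨q', hq'⟩ _)
    obtain ⟨-, x', y', hE', -, -, hd', hpole⟩ := good_spec hXY (good_of_pole hXY hdX)
    refine ih (pole x') ?_ x' y' hE' hd' rfl
    have h5X : pole X = padicValInt 5 q := by rw [hq, padicValInt.of_nat]; rfl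
    rw [padicValInt.mul hq0 (pow_ne_zero 2 (by rw [hDD]; simp [hD0])), hDD, mul_pow,
      padicValInt.mul (by norm_num) (pow_ne_zero 2 hD0), padicValInt.eq_zero_of_not_dvd
        (fun h' => hD5 (prime_five.dvd_of_dvd_pow h')), ← h5X, hk, hpole] at hv
    have h2 : padicValInt 5 ((5 : ℤ) ^ 2) = 2 := by
      rw [show ((5 : ℤ) ^ 2) = ((5 ^ 2 : ℕ) : ℤ) by norm_num, padicValInt.of_nat, padicValNat.prime_pow]
    omega
  · have hq5 : (q : ZMod 5) ≠ 0 := by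
      rw [← five_not_dvd_iff, hq]; exact fun h' => hdX (Int.natCast_dvd_natCast.mp h')
    have hQ : ¬ (5 : ℤ) ∣ q * D ^ 2 := by
      rw [five_not_dvd_iff, hD]; push_cast
      rw [show (5 : ZMod 5) = 0 by decide, show (29 : ZMod 5) = 4 by decide]
      simp only [zero_mul, zero_add, zero_sub, neg_sq]
      exact mul_ne_zero hq5 (pow_ne_zero 2 (mul_ne_zero (by decide) (pow_ne_zero 2 hq5)))
    refine den_not_dvd (P := N) hQ ?_ hd
    rw [eq_div_iff (by exact_mod_cast fun e : q * D ^ 2 = 0 => hQ (e ▸ dvd_zero _))]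
    exact hrel

/-- **The rational points of the source** have abscissa `0` or `1`. -/
theorem rat_points {x y : ℚ} (h : OnE x y) : x = 0 ∨ x = 1 := by
  by_contra hc
  push Not at hc
  obtain ⟨x', y', h', -, -, hd, -⟩ := exists_pole_in_fibre h hc.1 (sub_ne_zero.mpr hc.2)
  exact no_pole _ x' y' h' hd rfl

/-- **The rational points of the target** have abscissa `5` or `16`. -/
theorem rat_points' {X Y : ℚ} (h : OnE' X Y) : X = 5 ∨ X = 16 := by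
  by_contra hc
  push Not at hc
  have good : ∀ {X Y : ℚ}, OnE' X Y → ¬ (11 : ℤ) ∣ (X - 16).num → False := fun h hg => by
    obtain ⟨-, x, y, hE, h0, h1, -, -⟩ := good_spec h hg
    rcases rat_points hE with e | e
    · exact h0 e
    · exact h1 (sub_eq_zero.mpr e)
  by_cases hn : (11 : ℤ) ∣ (X - 16).num
  · obtain ⟨X₂, Y₂, h2, hg, -⟩ := exists_translate h hn hc.1 hc.2
    exact good h2 hg
  · exact good h hn

end FLTAgent.SmallCurves.X1Eleven
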