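import Mathlib

/-!
The `j`-invariants of the curves with a point of order eleven over the rational points of
`y² + y = x³ - x² - 10x - 20`.
-/

set_option autoImplicit false

namespace FLTAgent.SmallCurves.X1Eleven

variable {F : Type*} [Field F] [CharZero F]

set_option maxHeartbeats 1000000 in
/-- The invariant over `X = 5`, `2Y + 1 = 11`. -/
lemma invariant_jA {x y b c B₂ : F} (h0 : x ≠ 0)
    (hh : x ^ 5 - 7 * x ^ 4 + 13 * x ^ 3 - 5 * x ^ 2 - 2 * x + 1 = 0)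
    (hy : (x ^ 3 * (x - 1) ^ 3 - 2 * (x - 1) ^ 3 - 2 * x ^ 4) * (2 * y + 1) =
      (11) * (x ^ 3 * (x - 1) ^ 3))
    (hb : b * x = (1 + y) * (x + y) * y) (hc : c * x = (x + y) * y)
    (h2 : B₂ = (1 - c) ^ 2 - 4 * b) :
    (B₂ ^ 2 - 24 * b * (c - 1)) ^ 3 = (-121) * (b ^ 3 * (B₂ ^ 2 - 8 * (c - 1) ^ 3 - 27 * b + 9 * B₂ * (c - 1))) := by
  have ey : y = x ^ 4 - 6 * x ^ 3 + 8 * x ^ 2 - 2 := by
    linear_combination ((-(107 / 11) * x ^ 4 + (691 / 11) * x ^ 3 - (1017 / 11) * x ^ 2 - (13 / 11) * x + (204 /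
        11)) / 2) * hy +
      ((-(-(107 / 11) * x ^ 5 + (263 / 11) * x ^ 4 + (35 / 11) * x ^ 3 + 31 * x ^ 2 - (456 / 11) *
        x + (397 / 11)) * (2 * y + 1) + (-107 * x ^ 5 + 263 * x ^ 4 - 179 * x ^ 3 + 11 * x ^ 2 + 6 * x + 3)) / 2) * hh
  have eb : b = x ^ 4 - 2 * x ^ 3 - x ^ 2 + x := by
    apply mul_right_cancel₀ h0
    rw [hb, ey]
    linear_combination (x ^ 7 - 11 * x ^ 6 + 42 * x ^ 5 - 61 * x ^ 4 + 13 * x ^ 3 + 31 * x ^ 2 - 6 * x - 4) * hh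
  have ec : c = -x ^ 4 + 7 * x ^ 3 - 11 * x ^ 2 + x + 2 := by
    apply mul_right_cancel₀ h0
    rw [hc, ey]
    linear_combination (x ^ 3 - 5 * x ^ 2 + 4 * x + 4) * hh
  have e2 : B₂ = -9 * x ^ 3 + 23 * x ^ 2 - 5 * x - 2 := by
    rw [h2, eb, ec]
    linear_combination (x ^ 3 - 7 * x ^ 2 + 9 * x + 3) * hh
  have e3 : b ^ 3 = 27592 * x ^ 4 - 76466 * x ^ 3 + 35346 * x ^ 2 + 11507 * x - 6525 := by
    rw [eb]
    linear_combination (x ^ 7 + x ^ 6 + 3 * x ^ 5 + 20 * x ^ 4 + 87 * x ^ 3 + 365 * x ^ 2 + 1543 * x + 6525) * hh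
  have eK : B₂ ^ 2 - 8 * (c - 1) ^ 3 - 27 * b + 9 * B₂ * (c - 1) = -104 * x ^ 4 + 291 * x ^ 3 - 121 * x ^ 2 - 48 * x + 22 := by
    rw [e2, eb, ec]
    linear_combination (8 * x ^ 7 - 112 * x ^ 6 + 552 * x ^ 5 - 1104 * x ^ 4 + 704 * x ^ 3 + 193 * x ^ 2 - 134 *
        x - 44) * hh
  have e4 : B₂ ^ 2 - 24 * b * (c - 1) = 133 * x ^ 4 - 362 * x ^ 3 + 164 * x ^ 2 + 53 * x - 29 := by
    rw [e2, eb, ec]
    linear_combination (24 * x ^ 3 - 48 * x ^ 2 + 9 * x + 33) * hh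
  have e42 : (B₂ ^ 2 - 24 * b * (c - 1)) ^ 2 = 2482579 * x ^ 4 - 6879807 * x ^ 3 + 3180122 * x ^ 2 + 1035298 * x - 587059 := by
    rw [e4]
    linear_combination (17689 * x ^ 3 + 27531 * x ^ 2 + 137428 * x + 587900) * hh
  rw [pow_succ, e42, e4, e3, eK]
  linear_combination (-17034721 * x ^ 3 + 839080 * x ^ 2 + 6701387 * x - 344839) * hh

set_option maxHeartbeats 1000000 in
/-- The invariant over `X = 5`, `2Y + 1 = -11`. -/
lemma invariant_jB {x y b c B₂ : F} (h0 : x ≠ 0)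
    (hh : x ^ 5 - 7 * x ^ 4 + 13 * x ^ 3 - 5 * x ^ 2 - 2 * x + 1 = 0)
    (hy : (x ^ 3 * (x - 1) ^ 3 - 2 * (x - 1) ^ 3 - 2 * x ^ 4) * (2 * y + 1) =
      (-11) * (x ^ 3 * (x - 1) ^ 3))
    (hb : b * x = (1 + y) * (x + y) * y) (hc : c * x = (x + y) * y)
    (h2 : B₂ = (1 - c) ^ 2 - 4 * b) :
    (B₂ ^ 2 - 24 * b * (c - 1)) ^ 3 = (-32768) * (b ^ 3 * (B₂ ^ 2 - 8 * (c - 1) ^ 3 - 27 * b + 9 * B₂ * (c - 1))) := by
  have ey : y = -x ^ 4 + 6 * x ^ 3 - 8 * x ^ 2 + 1 := by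
    linear_combination ((-(107 / 11) * x ^ 4 + (691 / 11) * x ^ 3 - (1017 / 11) * x ^ 2 - (13 / 11) * x + (204 /
        11)) / 2) * hy +
      ((-(-(107 / 11) * x ^ 5 + (263 / 11) * x ^ 4 + (35 / 11) * x ^ 3 + 31 * x ^ 2 - (456 / 11) *
        x + (397 / 11)) * (2 * y + 1) + (107 * x ^ 5 - 263 * x ^ 4 + 179 * x ^ 3 - 11 * x ^ 2 - 6 * x - 3)) / 2) * hh
  have eb : b = -x ^ 4 + 4 * x ^ 3 - 2 * x ^ 2 := by
    apply mul_right_cancel₀ h0
    rw [hb, ey]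
    linear_combination (-x ^ 7 + 11 * x ^ 6 - 42 * x ^ 5 + 63 * x ^ 4 - 24 * x ^ 3 - 18 * x ^ 2 + 6 * x + 2) * hh
  have ec : c = 2 * x - 1 := by
    apply mul_right_cancel₀ h0
    rw [hc, ey]
    linear_combination (x ^ 3 - 5 * x ^ 2 + 4 * x + 1) * hh
  have e2 : B₂ = 4 * x ^ 4 - 16 * x ^ 3 + 12 * x ^ 2 - 8 * x + 4 := by
    rw [h2, eb, ec]
    linear_combination (0) * hh
  have e3 : b ^ 3 = -1161 * x ^ 4 + 3328 * x ^ 3 - 1563 * x ^ 2 - 500 * x + 287 := by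
    rw [eb]
    linear_combination (-x ^ 7 + 5 * x ^ 6 - 6 * x ^ 5 - 7 * x ^ 3 - 20 * x ^ 2 - 74 * x - 287) * hh
  have eK : B₂ ^ 2 - 8 * (c - 1) ^ 3 - 27 * b + 9 * B₂ * (c - 1) = 587 * x ^ 4 - 1644 * x ^ 3 + 806 * x ^ 2 + 200 * x - 128 := by
    rw [e2, eb, ec]
    linear_combination (16 * x ^ 3 - 16 * x ^ 2 + 32 * x + 136) * hh
  have e4 : B₂ ^ 2 - 24 * b * (c - 1) = 512 * x ^ 4 - 1376 * x ^ 3 + 704 * x ^ 2 + 128 * x - 96 := by
    rw [e2, eb, ec]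
    linear_combination (16 * x ^ 3 - 16 * x ^ 2 + 32 * x + 112) * hh
  have e42 : (B₂ ^ 2 - 24 * b * (c - 1)) ^ 2 = 39243776 * x ^ 4 - 108724224 * x ^ 3 + 50254848 * x ^ 2 + 16356352 * x - 9275392 := by
    rw [e4]
    linear_combination (262144 * x ^ 3 + 425984 * x ^ 2 + 2188288 * x + 9284608) * hh
  rw [pow_succ, e42, e4, e3, eK]
  linear_combination (-2238808064 * x ^ 3 + 1219330048 * x ^ 2 + 593920000 * x - 313327616) * hh

set_option maxHeartbeats 1000000 in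
/-- The invariant over `X = 16`, `2Y + 1 = 121`. -/
lemma invariant_cusp {x y b c B₂ : F} (h0 : x ≠ 0)
    (hh : x ^ 5 - 18 * x ^ 4 + 35 * x ^ 3 - 16 * x ^ 2 - 2 * x + 1 = 0)
    (hy : (x ^ 3 * (x - 1) ^ 3 - 2 * (x - 1) ^ 3 - 2 * x ^ 4) * (2 * y + 1) =
      (121) * (x ^ 3 * (x - 1) ^ 3))
    (hb : b * x = (1 + y) * (x + y) * y) (hc : c * x = (x + y) * y)
    (h2 : B₂ = (1 - c) ^ 2 - 4 * b) :
    b ^ 3 * (B₂ ^ 2 - 8 * (c - 1) ^ 3 - 27 * b + 9 * B₂ * (c - 1)) = 0 := by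
  have ey : y = (3 / 11) * x ^ 4 - (52 / 11) * x ^ 3 + (74 / 11) * x ^ 2 - (17 / 11) * x - (10 / 11) := by
    linear_combination ((-(665 / 1331) * x ^ 4 + (11611 / 1331) * x ^ 3 - (17034 / 1331) * x ^ 2 + (1902 / 1331)
        * x + (1960 / 1331)) / 2) * hy +
      ((-(-(665 / 1331) * x ^ 5 + (1636 / 1331) * x ^ 4 + (191 / 1331) * x ^ 3 + (2148 / 1331) * x
        ^ 2 - (2778 / 1331) * x + (2589 / 1331)) * (2 * y + 1) + (-(665 / 11) * x ^ 5 + (1636 / 11) * x ^ 4 - (1139 / 11) * x ^ 3 + (100 / 11) * x ^ 2 +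
        (52 / 11) * x + (9 / 11))) / 2) * hh
  have eb : b = (3 / 11) * x ^ 4 + (3 / 11) * x ^ 3 - (14 / 11) * x ^ 2 + (5 / 11) * x + (1 / 11) := by
    apply mul_right_cancel₀ h0
    rw [hb, ey]
    linear_combination ((27 / 1331) * x ^ 7 - (918 / 1331) * x ^ 6 + (8865 / 1331) * x ^ 5 - (18100 / 1331) * x
        ^ 4 + (11172 / 1331) * x ^ 3 + (325 / 1331) * x ^ 2 - (1391 / 1331) * x + (100 / 1331)) * hh
  have ec : c = -(7 / 11) * x ^ 4 + (125 / 11) * x ^ 3 - (213 / 11) * x ^ 2 + (58 / 11) * x + (27 / 11) := by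
    apply mul_right_cancel₀ h0
    rw [hc, ey]
    linear_combination ((9 / 121) * x ^ 3 - (150 / 121) * x ^ 2 + (133 / 121) * x + (100 / 121)) * hh
  have e2 : B₂ = (1 / 11) * x ^ 4 + (23 / 11) * x ^ 3 - (56 / 11) * x ^ 2 + (20 / 11) * x + (26 / 11) := by
    rw [h2, eb, ec]
    linear_combination ((49 / 121) * x ^ 3 - (868 / 121) * x ^ 2 + (1268 / 121) * x - (74 / 121)) * hh
  have e3 : b ^ 3 = (1171112440 / 11) * x ^ 4 - (2509840803 / 11) * x ^ 3 + (1190704490 / 11) * x ^ 2 +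
        (143052761 / 11) * x - (73855187 / 11) := by
    rw [eb]
    linear_combination ((27 / 1331) * x ^ 7 + (567 / 1331) * x ^ 6 + (8964 / 1331) * x ^ 5 + (141345 / 1331) * x
        ^ 4 + (2241279 / 1331) * x ^ 3 + (35541171 / 1331) * x ^ 2 + (563571190 / 1331) * x +
        (8936477628 / 1331)) * hh
  have eK : B₂ ^ 2 - 8 * (c - 1) ^ 3 - 27 * b + 9 * B₂ * (c - 1) = 0 := by
    rw [e2, eb, ec]
    linear_combination ((2744 / 1331) * x ^ 7 - (97608 / 1331) * x ^ 6 + (1022504 / 1331) * x ^ 5 - (2773952 /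
        1331) * x ^ 4 + (2638478 / 1331) * x ^ 3 - (595974 / 1331) * x ^ 2 - (155105 / 1331) * x
        + (12585 / 1331)) * hh
  rw [e3, eK]
  linear_combination (0) * hh

set_option maxHeartbeats 1000000 in
/-- The invariant over `X = 16`, `2Y + 1 = -121`. -/
lemma invariant_jC {x y b c B₂ : F} (h0 : x ≠ 0)
    (hh : x ^ 5 - 18 * x ^ 4 + 35 * x ^ 3 - 16 * x ^ 2 - 2 * x + 1 = 0)
    (hy : (x ^ 3 * (x - 1) ^ 3 - 2 * (x - 1) ^ 3 - 2 * x ^ 4) * (2 * y + 1) =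
      (-121) * (x ^ 3 * (x - 1) ^ 3))
    (hb : b * x = (1 + y) * (x + y) * y) (hc : c * x = (x + y) * y)
    (h2 : B₂ = (1 - c) ^ 2 - 4 * b) :
    (B₂ ^ 2 - 24 * b * (c - 1)) ^ 3 = (-24729001) * (b ^ 3 * (B₂ ^ 2 - 8 * (c - 1) ^ 3 - 27 * b + 9 * B₂ * (c - 1))) := by
  have ey : y = -(3 / 11) * x ^ 4 + (52 / 11) * x ^ 3 - (74 / 11) * x ^ 2 + (17 / 11) * x - (1 / 11) := by
    linear_combination ((-(665 / 1331) * x ^ 4 + (11611 / 1331) * x ^ 3 - (17034 / 1331) * x ^ 2 + (1902 / 1331)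
        * x + (1960 / 1331)) / 2) * hy +
      ((-(-(665 / 1331) * x ^ 5 + (1636 / 1331) * x ^ 4 + (191 / 1331) * x ^ 3 + (2148 / 1331) * x
        ^ 2 - (2778 / 1331) * x + (2589 / 1331)) * (2 * y + 1) + ((665 / 11) * x ^ 5 - (1636 / 11) * x ^ 4 + (1139 / 11) * x ^ 3 - (100 / 11) * x ^ 2 -
        (52 / 11) * x - (9 / 11))) / 2) * hh
  have eb : b = -(3 / 11) * x ^ 4 + (19 / 11) * x ^ 3 - (19 / 11) * x ^ 2 + (6 / 11) * x - (1 / 11) := by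
    apply mul_right_cancel₀ h0
    rw [hb, ey]
    linear_combination (-(27 / 1331) * x ^ 7 + (918 / 1331) * x ^ 6 - (8865 / 1331) * x ^ 5 + (18298 / 1331) * x
        ^ 4 - (14571 / 1331) * x ^ 3 + (4251 / 1331) * x ^ 2 - (292 / 1331) * x + (10 / 1331)) * hh
  have ec : c = -(4 / 11) * x ^ 4 + (73 / 11) * x ^ 3 - (150 / 11) * x ^ 2 + (96 / 11) * x - (16 / 11) := by
    apply mul_right_cancel₀ h0
    rw [hc, ey]
    linear_combination ((9 / 121) * x ^ 3 - (150 / 121) * x ^ 2 + (133 / 121) * x + (1 / 121)) * hh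
  have e2 : B₂ = (43 / 11) * x ^ 4 - (540 / 11) * x ^ 3 + (1046 / 11) * x ^ 2 - (647 / 11) * x + (117 /
        11) := by
    rw [h2, eb, ec]
    linear_combination ((16 / 121) * x ^ 3 - (296 / 121) * x ^ 2 + (641 / 121) * x - (514 / 121)) * hh
  have e3 : b ^ 3 = -(250943157 / 11) * x ^ 4 + (537802658 / 11) * x ^ 3 - (255141301 / 11) * x ^ 2 -
        (30653001 / 11) * x + (15825512 / 11) := by
    rw [eb]
    linear_combination (-(27 / 1331) * x ^ 7 + (27 / 1331) * x ^ 6 - (2331 / 1331) * x ^ 5 - (29816 / 1331) * x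
        ^ 4 - (480630 / 1331) * x ^ 3 - (7615526 / 1331) * x ^ 2 - (120760767 / 1331) * x -
        (1914886953 / 1331)) * hh
  have eK : B₂ ^ 2 - 8 * (c - 1) ^ 3 - 27 * b + 9 * B₂ * (c - 1) = 102178 * x ^ 4 - 219912 * x ^ 3 + 106109 * x ^ 2 + 10998 * x - 6200 := by
    rw [e2, eb, ec]
    linear_combination ((512 / 1331) * x ^ 7 - (18816 / 1331) * x ^ 6 + (212576 / 1331) * x ^ 5 - (758280 /
        1331) * x ^ 4 + (1314383 / 1331) * x ^ 3 - (1265721 / 1331) * x ^ 2 + (1340003 / 1331) *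
        x + (8250769 / 1331)) * hh
  have e4 : B₂ ^ 2 - 24 * b * (c - 1) = (1118347 / 11) * x ^ 4 - (2409221 / 11) * x ^ 3 + (1167079 / 11) * x ^ 2 + (116459 / 11)
        * x - (67203 / 11) := by
    rw [e2, eb, ec]
    linear_combination ((1561 / 121) * x ^ 3 - (11262 / 121) * x ^ 2 + (78293 / 121) * x + (752274 / 121)) * hh
  have e42 : (B₂ ^ 2 - 24 * b * (c - 1)) ^ 2 = 567044208020827 * x ^ 4 - 1215246839756929 * x ^ 3 + 576530540148211 * x ^ 2 +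
        69265114765790 * x - 35760149306511 := by
    rw [e4]
    linear_combination ((1250700012409 / 121) * x ^ 3 + (17123910067988 / 121) * x ^ 2 + (272870625213136 / 121)
        * x + (4326982582331040 / 121)) * hh
  rw [pow_succ, e42, e4, e3, eK]
  linear_combination ((79091609749283023 / 11) * x ^ 3 - (200554123572964408 / 11) * x ^ 2 +
        (138004623659909923 / 11) * x - (23175119010315667 / 11)) * hh

end FLTAgent.SmallCurves.X1Eleven
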