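import Fermat.Agent.SmallCurves.X1Eleven.Isogeny
import Fermat.Agent.SmallCurves.Semistable35
import Fermat.Agent.LocalEC.Galois
import Fermat.Agent.Places.Basic

/-!
A rational point of `y² + y = x³ - x² - 10x - 20` off the node modulo `11` is the image of a
rational point of `y² + y = x³ - x²`: the fibre is everywhere unramified.
-/

set_option autoImplicit false

namespace FLTAgent.SmallCurves.X1Eleven

local notation "𝕂" => AlgebraicClosure ℚ

section residue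

variable {k : Type*} [Field k] {a b : k}

lemma residue_t1 (hx : a ^ 2 * a = -b)
    (hy : b * a ^ 3 = b ^ 2 - a ^ 3) (hq : a ^ 2 * a ^ 2 - a + 1 - a = 0) :
    (11 : k) = 0 ∧ a = 8 := by
  have ha : a ≠ 0 := fun h => one_ne_zero (by rw [h] at hq; linear_combination hq : (1 : k) = 0)
  have hb : 2 * b + 1 = 0 := by
    apply mul_left_cancel₀ (pow_ne_zero 3 ha)
    linear_combination hy + b * hx
  have h3 : 2 * a ^ 3 = 1 := by linear_combination 2 * hx - hb
  have h2 : 3 * a = 2 := by linear_combination -2 * hq + a * h3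
  have h11 : (11 : k) = 0 := by
    linear_combination -27 * h3 + 2 * (9 * a ^ 2 + 6 * a + 4) * h2
  refine ⟨h11, ?_⟩
  have h : (3 : k) * (a - 8) = 0 := by linear_combination h2 - 2 * h11
  refine sub_eq_zero.mp ((mul_eq_zero.mp h).resolve_left fun h' => one_ne_zero (?_ : (1 : k) = 0))
  linear_combination 4 * h' - h11

lemma residue_t3 (hc : b ^ 2 + b = a ^ 3 - a ^ 2) (hx : (a - 1) ^ 2 * (a + a) = b ^ 2)
    (hy : (b + 1) * (a - 1) = -b * (a - 1))
    (hq : (a - 1) ^ 2 * a ^ 2 - (2 * a ^ 2 - 2 * a + 1) * a + a * (a - 1) = 0) :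
    (11 : k) = 0 ∧ a = 8 := by
  have ha : a - 1 ≠ 0 := fun h => one_ne_zero (by
    rw [sub_eq_zero.mp h] at hq; linear_combination -hq : (1 : k) = 0)
  have hb : 2 * b + 1 = 0 := by
    apply mul_right_cancel₀ ha
    linear_combination hy
  have e1 : 4 * a ^ 3 - 4 * a ^ 2 + 1 = 0 := by linear_combination -4 * hc + (2 * b + 1) * hb
  have e2 : 8 * a * (a - 1) ^ 2 - 1 = 0 := by linear_combination 4 * hx + (2 * b - 1) * hb
  have h2 : 3 * a = 2 := by linear_combination -(2 - 2 * a) * e1 - a * e2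
  have h11 : (11 : k) = 0 := by
    linear_combination 27 * e1 - (36 * a ^ 2 - 12 * a - 8) * h2
  refine ⟨h11, ?_⟩
  have h : (3 : k) * (a - 8) = 0 := by linear_combination h2 - 2 * h11
  refine sub_eq_zero.mp ((mul_eq_zero.mp h).resolve_left fun h' => one_ne_zero (?_ : (1 : k) = 0))
  linear_combination 4 * h' - h11

end residue

section local'

variable {L : Type*} [Field L] [CharZero L] {A : ValuationSubring L} {x y : L}

open IsLocalRing LocalEC

omit [CharZero L] in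
/-- The translate of a nonintegral point by `(0, 0)` or `(1, 0)` is integral. -/
lemma t_integral (hE : OnE x y) (hx : x ∉ A) :
    t1X x y ∈ A ∧ t3X x y ∈ A := by
  have h1 : A.valuation x⁻¹ < 1 := by
    rw [map_inv₀]; exact inv_lt_one_of_one_lt₀ (not_mem_iff_one_lt_val.mp hx)
  have hi : x⁻¹ ∈ A := mem_of_val_le_one h1.le
  have h0 : x ≠ 0 := fun h => hx (h ▸ A.zero_mem)
  have hu : A.valuation (1 - x⁻¹) = 1 := by
    rw [A.valuation.map_sub_eq_of_lt_left (by rwa [map_one]), map_one]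
  have hj : (1 - x⁻¹)⁻¹ ∈ A := mem_of_val_le_one (by rw [map_inv₀, hu, inv_one])
  have hne : 1 - x⁻¹ ≠ 0 := fun h => zero_ne_one (α := A.ValueGroup) (by rw [← hu, h, map_zero])
  have hx1 : x - 1 ≠ 0 := fun h => hne (by rw [sub_eq_zero.mp h, inv_one, sub_self])
  unfold OnE at hE
  constructor
  · refine (mem_of_add_mem_of_mul_mem (b := t1X x (-y - 1)) ?_ ?_).1
    · rw [show t1X x y + t1X x (-y - 1) = x⁻¹ * x⁻¹ by simp only [t1X]; field_simp; ring]
      exact mul_mem hi hi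
    · rw [show t1X x y * t1X x (-y - 1) = x⁻¹ * x⁻¹ * x⁻¹ * x⁻¹ * (x ^ 2) * (1 - x) by
        simp only [t1X]; field_simp; linear_combination -hE]
      rw [show x⁻¹ * x⁻¹ * x⁻¹ * x⁻¹ * (x ^ 2) * (1 - x) = x⁻¹ * (x⁻¹ - 1) by field_simp]
      exact mul_mem hi (sub_mem hi (one_mem A))
  · refine (mem_of_add_mem_of_mul_mem (b := t3X x (-y - 1)) ?_ ?_).1
    · rw [show t3X x y + t3X x (-y - 1) =
          (2 - 2 * x⁻¹ + x⁻¹ * x⁻¹) * ((1 - x⁻¹)⁻¹ * (1 - x⁻¹)⁻¹) by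
        simp only [t3X]; field_simp; linear_combination 2 * hE]
      exact mul_mem (add_mem (sub_mem (natCast_mem A 2) (mul_mem (natCast_mem A 2) hi))
        (mul_mem hi hi)) (mul_mem hj hj)
    · rw [show t3X x y * t3X x (-y - 1) = (1 - x⁻¹)⁻¹ by
        simp only [t3X]; field_simp
        linear_combination (y ^ 2 + y - x ^ 3 + x ^ 2 - 2 * x * (x - 1) ^ 2 + 2 * (x ^ 3 - x ^ 2)) * hE]
      exact hj

variable {σ : L →+* L}

omit [CharZero L] in
/-- Residues when `σ` translates an integral point by `(0, 0)`. -/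
lemma residue_case1 (hσ : ResidueFix A σ) (hE : OnE x y) (h0 : x ≠ 0) (hx : x ∈ A)
    (ex : σ x = t1X x y) (ey : σ y = t1Y x y) :
    (11 : ResidueField A) = 0 ∧ residue A ⟨x, hx⟩ = 8 := by
  have hy : y ∈ A := mem_of_sq_add_mul (a := 1) (c := x ^ 3 - x ^ 2) (one_mem A)
    (sub_mem (pow_mem hx 3) (pow_mem hx 2)) (by rw [one_mul]; exact hE)
  have r1 := hσ.residue_map ⟨x, hx⟩
  have r2 := hσ.residue_map ⟨y, hy⟩
  set X₂ : A := ⟨σ x, hσ.map_mem hx⟩
  set Y₂ : A := ⟨σ y, hσ.map_mem hy⟩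
  set x' : A := ⟨x, hx⟩
  set y' : A := ⟨y, hy⟩
  have a2 : x' ^ 2 * X₂ = -y' := Subtype.ext (by
    show x ^ 2 * σ x = -y
    rw [ex, t1X, mul_div_cancel₀ _ (pow_ne_zero 2 h0)])
  have a3 : Y₂ * x' ^ 3 = y' ^ 2 - x' ^ 3 := Subtype.ext (by
    show σ y * x ^ 3 = y ^ 2 - x ^ 3
    rw [ey, t1Y, sub_mul, div_mul_cancel₀ _ (pow_ne_zero 3 h0), one_mul])
  have a4 : x' ^ 2 * X₂ ^ 2 - X₂ + 1 - x' = 0 := Subtype.ext (by
    show x ^ 2 * σ x ^ 2 - σ x + 1 - x = 0
    have hE' : y ^ 2 + y = x ^ 3 - x ^ 2 := hE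
    rw [ex, t1X]
    field_simp
    linear_combination hE')
  have b2 := congrArg (residue A) a2
  have b3 := congrArg (residue A) a3
  have b4 := congrArg (residue A) a4
  simp only [map_add, map_sub, map_mul, map_pow, map_neg, map_one, map_zero, r1, r2] at b2 b3 b4
  exact residue_t1 b2 b3 b4

omit [CharZero L] in
/-- Residues when `σ` translates an integral point by `(1, 0)`. -/
lemma residue_case3 (hσ : ResidueFix A σ) (hE : OnE x y) (h1 : x - 1 ≠ 0) (hx : x ∈ A)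
    (ex : σ x = t3X x y) (ey : σ y = t3Y x y) :
    (11 : ResidueField A) = 0 ∧ residue A ⟨x, hx⟩ = 8 := by
  have hy : y ∈ A := mem_of_sq_add_mul (a := 1) (c := x ^ 3 - x ^ 2) (one_mem A)
    (sub_mem (pow_mem hx 3) (pow_mem hx 2)) (by rw [one_mul]; exact hE)
  have r1 := hσ.residue_map ⟨x, hx⟩
  have r2 := hσ.residue_map ⟨y, hy⟩
  set X₂ : A := ⟨σ x, hσ.map_mem hx⟩
  set Y₂ : A := ⟨σ y, hσ.map_mem hy⟩
  set x' : A := ⟨x, hx⟩
  set y' : A := ⟨y, hy⟩
  have a1 : y' ^ 2 + y' = x' ^ 3 - x' ^ 2 := Subtype.ext hE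
  have a2 : (x' - 1) ^ 2 * (X₂ + x') = y' ^ 2 := Subtype.ext (by
    show (x - 1) ^ 2 * (σ x + x) = y ^ 2
    rw [ex, t3X, sub_add_cancel, mul_div_cancel₀ _ (pow_ne_zero 2 h1)])
  have a3 : (Y₂ + 1) * (x' - 1) = -y' * (X₂ - 1) := Subtype.ext (by
    show (σ y + 1) * (x - 1) = -y * (σ x - 1)
    rw [ey, t3Y, ex]
    field_simp
    ring)
  have a4 : (x' - 1) ^ 2 * X₂ ^ 2 - (2 * x' ^ 2 - 2 * x' + 1) * X₂ + x' * (x' - 1) = 0 :=
    Subtype.ext (by
    show (x - 1) ^ 2 * σ x ^ 2 - (2 * x ^ 2 - 2 * x + 1) * σ x + x * (x - 1) = 0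
    have hE' : y ^ 2 + y = x ^ 3 - x ^ 2 := hE
    rw [ex, t3X]
    field_simp
    linear_combination (y ^ 2 - y - x ^ 3 + x ^ 2) * hE')
  have b1 := congrArg (residue A) a1
  have b2 := congrArg (residue A) a2
  have b3 := congrArg (residue A) a3
  have b4 := congrArg (residue A) a4
  simp only [map_add, map_sub, map_mul, map_pow, map_neg, map_one, map_zero, map_ofNat, r1, r2]
    at b1 b2 b3 b4
  exact residue_t3 b1 b2 b3 b4

/-- A residually trivial automorphism fixes the fibre over a rational point off the node. -/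
lemma fixed_of_residueFix (hσ : ResidueFix A σ) {X : ℚ} (hX : ¬ (11 : ℤ) ∣ (X - 16).num)
    (hE : OnE x y) (h0 : x ≠ 0) (h1 : x - 1 ≠ 0) (hpX : psiX x = (X : L))
    (hA : psiA x ≠ 0) (hY : σ (psiA x * (2 * y + 1)) = psiA x * (2 * y + 1)) : σ x = x := by
  have node : ∀ hx : x ∈ A, (11 : ResidueField A) = 0 → residue A ⟨x, hx⟩ = 8 → False := by
    intro hx h11 ha
    have hd : residue A ((⟨x, hx⟩ : A) * (⟨x, hx⟩ - 1)) ≠ 0 := by
      rw [map_mul, map_sub, map_one, ha]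
      intro h; apply one_ne_zero (α := ResidueField A)
      linear_combination h - 5 * h11
    have hv := val_eq_one_of_residue_ne_zero hd
    have hn : A.valuation (((X - 16 : ℚ) : L)) < 1 := by
      have e : residue A (((⟨x, hx⟩ : A) ^ 5 - 2 * ⟨x, hx⟩ ^ 4 + 3 * ⟨x, hx⟩ ^ 3 - 2 * ⟨x, hx⟩ + 1) - 16 * ((⟨x, hx⟩ : A) * (⟨x, hx⟩ - 1)) ^ 2) = 0 := by
        simp only [map_sub, map_add, map_mul, map_pow, map_ofNat, map_one, ha]
        linear_combination (-2189 : ResidueField A) * h11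
      have e' := (residue_eq_zero_iff_val_lt_one _).mp e
      have e'' : ((((⟨x, hx⟩ : A) ^ 5 - 2 * ⟨x, hx⟩ ^ 4 + 3 * ⟨x, hx⟩ ^ 3 - 2 * ⟨x, hx⟩ + 1) - 16 * ((⟨x, hx⟩ : A) * (⟨x, hx⟩ - 1)) ^ 2 : A) : L) =
          (((X - 16 : ℚ) : L)) * (x * (x - 1)) ^ 2 := by
        push_cast
        rw [← hpX, psiX, sub_mul, psiNum, div_mul_cancel₀ _ (pow_ne_zero 2 (mul_ne_zero h0 h1))]
        rfl
      rw [e'', map_mul, map_pow] at e'
      simp only [MulMemClass.coe_mul, AddSubgroupClass.coe_sub, OneMemClass.coe_one] at hv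
      rwa [hv, one_pow, mul_one] at e'
    have hnum : A.valuation (((X - 16).num : ℤ) : L) < 1 := by
      have e : (((X - 16).num : ℤ) : L) = ((X - 16 : ℚ) : L) * ((X - 16).den : L) := by
        exact_mod_cast (Rat.mul_den_eq_num (X - 16)).symm
      rw [e, map_mul]
      exact (mul_le_of_le_one_right' (val_le_one (natCast_mem A _))).trans_lt hn
    have h11' : A.valuation (((11 : ℤ)) : L) < 1 := by
      have h := (residue_eq_zero_iff_val_lt_one ((11 : ℕ) : A)).mp (by rw [map_natCast]; exact_mod_cast h11)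
      push_cast at h ⊢
      exact h
    obtain ⟨u, w, huw⟩ : IsCoprime (11 : ℤ) (X - 16).num :=
      (Nat.prime_iff_prime_int.mp (by norm_num : Nat.Prime 11)).coprime_iff_not_dvd.mpr hX
    have := congrArg (fun z : ℤ => A.valuation (z : L)) huw
    simp only [Int.cast_add, Int.cast_mul, Int.cast_one, map_one] at this
    refine this.not_lt (A.valuation.map_add_lt ?_ ?_) <;> rw [map_mul] <;>
      refine (mul_le_of_le_one_left' (val_le_one (intCast_mem A _))).trans_lt ?_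
    · exact h11'
    · exact hnum
  have hpsi : σ (psiX x) = psiX (σ x) := by simp [psiX, psiNum, map_ofNat]
  have hpsA : σ (psiA x) = psiA (σ x) := by simp [psiA, map_ofNat]
  have hE' : OnE (σ x) (σ y) := by
    have := congrArg σ hE
    simpa [OnE] using this
  have h0' : σ x ≠ 0 := (map_ne_zero σ).mpr h0
  have h1' : σ x - 1 ≠ 0 := by rw [← map_one σ, ← map_sub]; exact (map_ne_zero σ).mpr h1
  rw [map_mul, map_add, map_mul, map_one, map_ofNat, hpsA] at hY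
  rcases fibre hE h0 h1 h0' h1' (by rw [← hpsi, hpX, map_ratCast]) hY
    (by rw [← hpsA]; exact (map_ne_zero σ).mpr hA) two_ne_zero
    with ⟨e, -⟩ | ⟨ex, ey⟩ | ⟨ex, ey⟩ | ⟨ex, ey⟩ | ⟨ex, ey⟩
  · exact e
  all_goals exfalso; by_cases hx : x ∈ A
  all_goals first
    | (refine hσ.map_not_mem hx ?_; rw [ex]; first
        | exact (t_integral hE hx).1 | exact (t_integral hE.neg hx).1
        | exact (t_integral hE hx).2 | exact (t_integral hE.neg hx).2)
    | skip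
  · exact node hx (residue_case1 hσ hE h0 hx ex ey).1 (residue_case1 hσ hE h0 hx ex ey).2
  · have eyn : σ (-y - 1) = t1Y x (-y - 1) := by rw [map_sub, map_neg, map_one, ey]
    exact node hx (residue_case1 hσ hE.neg h0 hx ex eyn).1 (residue_case1 hσ hE.neg h0 hx ex eyn).2
  · exact node hx (residue_case3 hσ hE h1 hx ex ey).1 (residue_case3 hσ hE h1 hx ex ey).2
  · have eyn : σ (-y - 1) = t3Y x (-y - 1) := by rw [map_sub, map_neg, map_one, ey]
    exact node hx (residue_case3 hσ hE.neg h1 hx ex eyn).1 (residue_case3 hσ hE.neg h1 hx ex eyn).2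

end local'

/-- The polynomial cutting out the fibre over `X`. -/
noncomputable def fibrePoly (X : ℚ) : Polynomial ℚ :=
  Polynomial.X ^ 5 - Polynomial.C (2 + X) * Polynomial.X ^ 4 +
    Polynomial.C (3 + 2 * X) * Polynomial.X ^ 3 - Polynomial.C X * Polynomial.X ^ 2 -
    Polynomial.C 2 * Polynomial.X + Polynomial.C 1

lemma fibre_root {X Y : ℚ} (hXY : OnE' X Y) (hY : 2 * Y + 1 ≠ 0) {x : 𝕂}
    (hx : Polynomial.aeval x (fibrePoly X) = 0) :
    ∃ y : 𝕂, OnE x y ∧ x ≠ 0 ∧ x - 1 ≠ 0 ∧ psiX x = (X : 𝕂) ∧ psiA x ≠ 0 ∧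
      psiA x * (2 * y + 1) = 2 * (Y : 𝕂) + 1 := by
  simp [fibrePoly] at hx
  have h0 : x ≠ 0 := by rintro rfl; simp at hx
  have h1 : x - 1 ≠ 0 := by
    intro h; rw [sub_eq_zero.mp h] at hx; ring_nf at hx; exact one_ne_zero hx
  have hp : psiX x = (X : 𝕂) := by
    rw [psiX, div_eq_iff (pow_ne_zero 2 (mul_ne_zero h0 h1))]
    simp only [psiNum]
    linear_combination hx
  have hY' : (2 * (Y : 𝕂) + 1) ≠ 0 := by exact_mod_cast hY
  have hc : (Y : 𝕂) ^ 2 + Y = (X : 𝕂) ^ 3 - X ^ 2 - 10 * X - 20 := by exact_mod_cast hXY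
  have hsq := psiA_sq h0 h1
  rw [hp] at hsq
  have hA : psiA x ≠ 0 := by
    intro h
    apply pow_ne_zero 2 hY'
    rw [h] at hsq
    linear_combination 4 * hc - hsq
  refine ⟨((2 * (Y : 𝕂) + 1) / psiA x - 1) / 2, ?_, h0, h1, hp, hA, by field_simp; ring⟩
  unfold OnE
  field_simp
  linear_combination 4 * hc - hsq

/-- **The fibre has a rational point.** -/
theorem exists_preimage {X Y : ℚ} (hXY : OnE' X Y) (hY : 2 * Y + 1 ≠ 0)
    (hX : ¬ (11 : ℤ) ∣ (X - 16).num) :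
    ∃ x y : ℚ, OnE x y ∧ x ≠ 0 ∧ x - 1 ≠ 0 ∧ psiX x = X := by
  have := isGalois_rat_algebraicClosure
  have : Algebra.IsAlgebraic ℚ 𝕂 := AlgebraicClosure.isAlgebraic ℚ
  set R : Set 𝕂 := (fibrePoly X).rootSet 𝕂 with hR
  have hdeg : (fibrePoly X).natDegree = 5 := by unfold fibrePoly; compute_degree!
  have hne : fibrePoly X ≠ 0 := fun h => by simp [h] at hdeg
  have hmem : ∀ x : 𝕂, x ∈ R ↔ Polynomial.aeval x (fibrePoly X) = 0 := fun x => by
    rw [hR, Polynomial.mem_rootSet_of_ne hne]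
  let H : Subgroup (𝕂 ≃ₐ[ℚ] 𝕂) :=
    { carrier := {σ | ∀ x ∈ R, σ x = x}
      mul_mem' := fun {a b} ha hb x hx => by rw [AlgEquiv.mul_apply, hb x hx, ha x hx]
      one_mem' := fun x _ => rfl
      inv_mem' := fun {a} ha x hx => by
        conv_lhs => rw [← ha x hx]
        exact a.symm_apply_apply x }
  have : H.Normal := ⟨fun σ hσ g x hx => by
    have hx' : g⁻¹ x ∈ R := by
      rw [hmem] at hx ⊢
      rw [show g⁻¹ x = (g⁻¹ : 𝕂 ≃ₐ[ℚ] 𝕂).toAlgHom x from rfl, Polynomial.aeval_algHom_apply, hx,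
        map_zero]
    rw [AlgEquiv.mul_apply, AlgEquiv.mul_apply, hσ _ hx']
    exact g.apply_symm_apply x⟩
  have hopen : IsOpen (H : Set (𝕂 ≃ₐ[ℚ] 𝕂)) := by
    have e : (H : Set (𝕂 ≃ₐ[ℚ] 𝕂)) =
        ⋂ x ∈ R, (MulAction.stabilizer (𝕂 ≃ₐ[ℚ] 𝕂) x : Set (𝕂 ≃ₐ[ℚ] 𝕂)) := by
      ext σ
      simp only [Set.mem_iInter, SetLike.mem_coe, MulAction.mem_stabilizer_iff]
      exact Iff.rfl
    rw [e]
    exact (Polynomial.rootSet_finite _ _).isOpen_biInter fun x _ => stabilizer_isOpen_of_isIntegral x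
  have htop : H = ⊤ := Places.eq_top_of_forall_inertia_le H hopen fun ℓ _ V _ σ hσ x hx => by
    obtain ⟨y, hE, h0, h1, hp, hA, hy⟩ := fibre_root hXY hY ((hmem x).mp hx)
    exact fixed_of_residueFix (LocalEC.residueFix_of_mem_inertia hσ) hX hE h0 h1 hp hA
      (by rw [hy, show (2 * (Y : 𝕂) + 1) = ((2 * Y + 1 : ℚ) : 𝕂) by push_cast; ring]
          exact map_ratCast _ _)
  obtain ⟨x, hx⟩ := IsAlgClosed.exists_aeval_eq_zero 𝕂 (fibrePoly X) (by
    rw [Polynomial.degree_eq_natDegree hne, hdeg]; norm_num)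
  obtain ⟨y, hE, h0, h1, hp, hA, hy⟩ := fibre_root hXY hY hx
  have hfix : ∀ σ : 𝕂 ≃ₐ[ℚ] 𝕂, σ x = x := fun σ =>
    (show σ ∈ H by rw [htop]; trivial) x ((hmem x).mpr hx)
  obtain ⟨q, hq⟩ := (InfiniteGalois.mem_range_algebraMap_iff_fixed _).mpr hfix
  have hqx : ((q : ℚ) : 𝕂) = x := by rw [← hq]; rfl
  subst hqx
  obtain ⟨r, hr⟩ : ∃ r : ℚ, (r : 𝕂) = y := by
    refine ⟨((2 * Y + 1) / psiA q - 1) / 2, ?_⟩
    have : ((psiA q : ℚ) : 𝕂) = psiA (q : 𝕂) := by simp [psiA]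
    push_cast
    rw [this, ← hy]
    field_simp
    ring
  subst hr
  refine ⟨q, r, ?_, by exact_mod_cast h0, by exact_mod_cast h1, ?_⟩
  · unfold OnE at hE ⊢; exact_mod_cast hE
  · have : ((psiX q : ℚ) : 𝕂) = psiX (q : 𝕂) := by simp [psiX, psiNum]
    rw [← this] at hp
    exact_mod_cast hp

end FLTAgent.SmallCurves.X1Eleven
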