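import Mathlib

/-!
The five-isogeny from `y² + y = x³ - x²` to `y² + y = x³ - x² - 10x - 20` by explicit formulas.
-/

set_option autoImplicit false

namespace FLTAgent.SmallCurves.X1Eleven

variable {F : Type*} [Field F]

/-- The numerator of the abscissa of the isogeny. -/
def psiNum (x : F) : F := x ^ 5 - 2 * x ^ 4 + 3 * x ^ 3 - 2 * x + 1

/-- The abscissa of the image. -/
def psiX (x : F) : F := psiNum x / (x * (x - 1)) ^ 2

/-- The derivative of the abscissa of the image. -/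
def psiA (x : F) : F := 1 - 2 / x ^ 3 - 2 * x / (x - 1) ^ 3

/-- The source. -/
def OnE (x y : F) : Prop := y ^ 2 + y = x ^ 3 - x ^ 2

/-- The target. -/
def OnE' (X Y : F) : Prop := Y ^ 2 + Y = X ^ 3 - X ^ 2 - 10 * X - 20

/-- The abscissa of `(x, y) + (0, 0)`. -/
def t1X (x y : F) : F := -y / x ^ 2

/-- The ordinate of `(x, y) + (0, 0)`. -/
def t1Y (x y : F) : F := y ^ 2 / x ^ 3 - 1

/-- The abscissa of `(x, y) + (1, 0)`. -/
def t3X (x y : F) : F := y ^ 2 / (x - 1) ^ 2 - x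

/-- The ordinate of `(x, y) + (1, 0)`. -/
def t3Y (x y : F) : F := -(y / (x - 1)) * (t3X x y - 1) - 1

variable {x y : F}

lemma OnE.neg (h : OnE x y) : OnE x (-y - 1) := by
  unfold OnE at *
  linear_combination h

lemma psiA_sq (h0 : x ≠ 0) (h1 : x - 1 ≠ 0) :
    psiA x ^ 2 * (4 * x ^ 3 - 4 * x ^ 2 + 1) =
      4 * psiX x ^ 3 - 4 * psiX x ^ 2 - 40 * psiX x - 79 := by
  simp only [psiA, psiX, psiNum]
  field_simp
  ring

lemma psiX_root {t : F} (h0 : x ≠ 0) (h1 : x - 1 ≠ 0) (ht0 : t ≠ 0) (ht1 : t - 1 ≠ 0)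
    (h : psiX t = psiX x) :
    t = x ∨ x ^ 2 * t ^ 2 - t + 1 - x = 0 ∨
      (x - 1) ^ 2 * t ^ 2 - (2 * x ^ 2 - 2 * x + 1) * t + x * (x - 1) = 0 := by
  simp only [psiX] at h
  rw [div_eq_div_iff (pow_ne_zero 2 (mul_ne_zero ht0 ht1)) (pow_ne_zero 2 (mul_ne_zero h0 h1))] at h
  have h' : (t - x) * ((x ^ 2 * t ^ 2 - t + 1 - x) *
      ((x - 1) ^ 2 * t ^ 2 - (2 * x ^ 2 - 2 * x + 1) * t + x * (x - 1))) = 0 := by
    simp only [psiNum] at h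
    linear_combination h
  rcases mul_eq_zero.mp h' with h' | h'
  · exact Or.inl (sub_eq_zero.mp h')
  · exact Or.inr (mul_eq_zero.mp h')

lemma t1_roots {t : F} (hE : OnE x y) (h0 : x ≠ 0)
    (h : x ^ 2 * t ^ 2 - t + 1 - x = 0) : t = t1X x y ∨ t = t1X x (-y - 1) := by
  have h' : (x ^ 2 * t + y) * (x ^ 2 * t + (-y - 1)) = 0 := by
    unfold OnE at hE
    linear_combination x ^ 2 * h - hE
  rcases mul_eq_zero.mp h' with e | e
  · left; rw [t1X, eq_div_iff (pow_ne_zero 2 h0)]; linear_combination e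
  · right; rw [t1X, eq_div_iff (pow_ne_zero 2 h0)]; linear_combination e

lemma t3_roots {t : F} (hE : OnE x y) (h1 : x - 1 ≠ 0)
    (h : (x - 1) ^ 2 * t ^ 2 - (2 * x ^ 2 - 2 * x + 1) * t + x * (x - 1) = 0) :
    t = t3X x y ∨ t = t3X x (-y - 1) := by
  have h' : ((x - 1) ^ 2 * (t + x) - y ^ 2) * ((x - 1) ^ 2 * (t + x) - (-y - 1) ^ 2) = 0 := by
    unfold OnE at hE
    linear_combination (x - 1) ^ 2 * h +
      ((y ^ 2 + y - x ^ 3 + x ^ 2) - 2 * (x - 1) ^ 2 * (t + x) + 2 * (x ^ 3 - x ^ 2)) * hE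
  rcases mul_eq_zero.mp h' with e | e
  · left; rw [t3X, eq_sub_iff_add_eq, eq_div_iff (pow_ne_zero 2 h1)]; linear_combination e
  · right; rw [t3X, eq_sub_iff_add_eq, eq_div_iff (pow_ne_zero 2 h1)]; linear_combination e

lemma psiX_div {n d : F} (hd : d ≠ 0) :
    psiX (n / d) = (n ^ 5 - 2 * n ^ 4 * d + 3 * n ^ 3 * d ^ 2 - 2 * n * d ^ 4 + d ^ 5) /
      (d * (n * (n - d)) ^ 2) := by
  simp only [psiX, psiNum]
  field_simp

lemma psiA_div {n d : F} (hd : d ≠ 0) (hn : n ≠ 0) (hnd : n - d ≠ 0) :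
    psiA (n / d) = (n ^ 3 * (n - d) ^ 3 - 2 * d ^ 3 * (n - d) ^ 3 - 2 * n * d ^ 2 * n ^ 3) /
      (n ^ 3 * (n - d) ^ 3) := by
  simp only [psiA, div_sub_one hd]
  field_simp

lemma OnE.y_ne (hE : OnE x y) (h0 : x ≠ 0) (h1 : x - 1 ≠ 0) : y ≠ 0 := by
  rintro rfl
  unfold OnE at hE
  exact mul_ne_zero (pow_ne_zero 2 h0) h1 (by linear_combination -hE)

lemma OnE.y_add_sq_ne (hE : OnE x y) (h0 : x ≠ 0) (h1 : x - 1 ≠ 0) : -y - x ^ 2 ≠ 0 := by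
  intro h
  unfold OnE at hE
  apply mul_ne_zero (pow_ne_zero 3 h0) h1
  linear_combination hE + (y - x ^ 2 + 1) * h

/-- Translation by `(0, 0)` does not change the image. -/
lemma t1_spec (hE : OnE x y) (h0 : x ≠ 0) (h1 : x - 1 ≠ 0) :
    OnE (t1X x y) (t1Y x y) ∧ t1X x y ≠ 0 ∧ t1X x y - 1 ≠ 0 ∧ psiX (t1X x y) = psiX x ∧
      psiA (t1X x y) * (2 * t1Y x y + 1) = psiA x * (2 * y + 1) := by
  have hy := hE.y_ne h0 h1
  have hy' := hE.y_add_sq_ne h0 h1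
  have h02 := pow_ne_zero 2 h0
  have hn : -y ≠ 0 := neg_ne_zero.mpr hy
  unfold OnE at hE ⊢
  refine ⟨?_, div_ne_zero hn h02, ?_, ?_, ?_⟩
  · simp only [t1X, t1Y]
    field_simp
    linear_combination (y ^ 2) * hE
  · rw [t1X, div_sub_one h02]; exact div_ne_zero hy' h02
  · rw [t1X, psiX_div h02, psiX, psiNum,
      div_eq_div_iff (mul_ne_zero h02 (pow_ne_zero 2 (mul_ne_zero hn hy')))
        (pow_ne_zero 2 (mul_ne_zero h0 h1))]
    linear_combination (-y^3 * x^4 + 2 * y^3 * x^3 - y^3 * x^2 - y^2 * x^7 + y^2 * x^5 - y^2 * x^4 - 2 * y *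
        x^9 + y * x^8 - x^11 + x^10) * hE
  · have e : 2 * t1Y x y + 1 = (2 * (y ^ 2 - x ^ 3) + x ^ 3) / x ^ 3 := by
      simp only [t1Y]; field_simp
    have eA : psiA x = (x ^ 3 * (x - 1) ^ 3 - 2 * (x - 1) ^ 3 - 2 * x * x ^ 3) /
        (x ^ 3 * (x - 1) ^ 3) := by
      simp only [psiA]; field_simp
    rw [e, eA, t1X, psiA_div h02 hn hy', div_mul_div_comm, div_mul_eq_mul_div,
      div_eq_div_iff (mul_ne_zero (mul_ne_zero (pow_ne_zero 3 hn) (pow_ne_zero 3 hy'))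
        (pow_ne_zero 3 h0)) (mul_ne_zero (pow_ne_zero 3 h0) (pow_ne_zero 3 h1))]
    linear_combination (2 * y^6 * x^6 - 6 * y^6 * x^5 + 6 * y^6 * x^4 - 2 * y^6 * x^3 - 2 * y^5 * x^9 + 12 *
        y^5 * x^8 - 20 * y^5 * x^7 + 22 * y^5 * x^6 - 12 * y^5 * x^5 + 6 * y^5 * x^4 - 2 *
        y^5 * x^3 - 6 * y^4 * x^11 + 20 * y^4 * x^10 - 10 * y^4 * x^9 + 10 * y^4 * x^8 - 10 *
        y^4 * x^7 + 10 * y^4 * x^6 - 4 * y^4 * x^5 - 6 * y^3 * x^13 + 22 * y^3 * x^12 - 10 *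
        y^3 * x^11 + 2 * y^3 * x^10 - 2 * y^3 * x^9 + 4 * y^3 * x^8 - 2 * y^3 * x^7 - 2 * y^2
        * x^15 + 12 * y^2 * x^14 - 10 * y^2 * x^13 + 2 * y^2 * x^12 + 6 * y * x^16 - 10 * y *
        x^15 + 4 * y * x^14 + 2 * x^18 - 4 * x^17 + 2 * x^16) * hE

/-- `(x, y) + (1, 0)` is obtained from two translations by `(0, 0)`. -/
lemma t3_eq (hE : OnE x y) (h0 : x ≠ 0) (h1 : x - 1 ≠ 0) :
    t3X x y = t1X (t1X x (-y - 1)) (t1Y x (-y - 1)) ∧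
      -t3Y x y - 1 = t1Y (t1X x (-y - 1)) (t1Y x (-y - 1)) := by
  have hy : y + 1 ≠ 0 := by
    intro h
    exact hE.neg.y_ne h0 h1 (by linear_combination -h)
  have e1 : t1X x (-y - 1) = (y + 1) / x ^ 2 := by simp only [t1X]; ring
  have e2 : t1Y x (-y - 1) = ((y + 1) * (y + 1) - x ^ 3) / x ^ 3 := by
    simp only [t1Y]; field_simp; ring
  unfold OnE at hE
  rw [e1, e2]
  have h02 := pow_ne_zero 2 h0
  have h03 := pow_ne_zero 3 h0
  have h12 := pow_ne_zero 2 h1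
  constructor
  · rw [eq_comm, show t3X x y = (y ^ 2 - x * (x - 1) ^ 2) / (x - 1) ^ 2 by
        simp only [t3X]; field_simp,
      show t1X ((y + 1) / x ^ 2) (((y + 1) * (y + 1) - x ^ 3) / x ^ 3) =
          (-((y + 1) * (y + 1) - x ^ 3) * x ^ 2 * x ^ 2) / (x ^ 3 * (y + 1) * (y + 1)) by
        simp only [t1X]; field_simp,
      div_eq_div_iff (mul_ne_zero (mul_ne_zero h03 hy) hy) h12]
    linear_combination (-y^2 * x^3 - y * x^3 - x^6 + x^5) * hE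
  · rw [eq_comm, show -t3Y x y - 1 = (-(-y * (y ^ 2 - x * (x - 1) ^ 2 - (x - 1) ^ 2) - (x - 1) ^ 3) -
          (x - 1) ^ 3) / (x - 1) ^ 3 by simp only [t3Y, t3X]; field_simp,
      show t1Y ((y + 1) / x ^ 2) (((y + 1) * (y + 1) - x ^ 3) / x ^ 3) =
          (((y + 1) * (y + 1) - x ^ 3) * ((y + 1) * (y + 1) - x ^ 3) * (x ^ 2) ^ 3 -
            (y + 1) ^ 3 * x ^ 3 * x ^ 3) / ((y + 1) ^ 3 * x ^ 3 * x ^ 3) by
        simp only [t1Y]; field_simp,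
      div_eq_div_iff (mul_ne_zero (mul_ne_zero (pow_ne_zero 3 hy) h03) h03) (pow_ne_zero 3 h1)]
    linear_combination (-y^4 * x^6 - 2 * y^3 * x^6 + y^2 * x^9 - 3 * y^2 * x^8 + 2 * y^2 * x^7 - y^2 * x^6 +
        3 * y * x^9 - 7 * y * x^8 + 4 * y * x^7 - x^12 + 2 * x^11 - x^10 + 2 * x^9 - 4 * x^8
        + 2 * x^7) * hE

/-- Translation by `(1, 0)` does not change the image. -/
lemma t3_spec (hE : OnE x y) (h0 : x ≠ 0) (h1 : x - 1 ≠ 0) :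
    OnE (t3X x y) (t3Y x y) ∧ t3X x y ≠ 0 ∧ t3X x y - 1 ≠ 0 ∧ psiX (t3X x y) = psiX x ∧
      psiA (t3X x y) * (2 * t3Y x y + 1) = psiA x * (2 * y + 1) := by
  obtain ⟨a1, a2, a3, a4, a5⟩ := t1_spec hE.neg h0 h1
  obtain ⟨b1, b2, b3, b4, b5⟩ := t1_spec a1 a2 a3
  obtain ⟨e1, e2⟩ := t3_eq hE h0 h1
  rw [← e1] at b1 b2 b3 b4 b5
  rw [← e2] at b1 b5
  refine ⟨?_, b2, b3, b4.trans a4, by linear_combination -b5 - a5⟩
  have := b1.neg
  rwa [show -(-t3Y x y - 1) - 1 = t3Y x y by ring] at this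

/-- The points with the same image as `(x, y)` are its five translates. -/
lemma fibre {x₂ y₂ : F} (hE : OnE x y) (h0 : x ≠ 0) (h1 : x - 1 ≠ 0)
    (h20 : x₂ ≠ 0) (h21 : x₂ - 1 ≠ 0) (hX : psiX x₂ = psiX x)
    (hY : psiA x₂ * (2 * y₂ + 1) = psiA x * (2 * y + 1)) (hA : psiA x₂ ≠ 0) (h2 : (2 : F) ≠ 0) :
    (x₂ = x ∧ y₂ = y) ∨ (x₂ = t1X x y ∧ y₂ = t1Y x y) ∨
      (x₂ = t1X x (-y - 1) ∧ -y₂ - 1 = t1Y x (-y - 1)) ∨ (x₂ = t3X x y ∧ y₂ = t3Y x y) ∨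
      (x₂ = t3X x (-y - 1) ∧ -y₂ - 1 = t3Y x (-y - 1)) := by
  have key : ∀ u v : F, u = x₂ → psiA u * (2 * v + 1) = psiA x * (2 * y + 1) → y₂ = v := by
    intro u v hu he
    subst hu
    apply mul_left_cancel₀ (mul_ne_zero hA h2)
    linear_combination hY - he
  have key' : ∀ u v : F, u = x₂ → psiA u * (2 * v + 1) = psiA x * (2 * (-y - 1) + 1) →
      -y₂ - 1 = v := by
    intro u v hu he
    subst hu
    apply mul_left_cancel₀ (mul_ne_zero hA h2)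
    linear_combination -hY - he
  rcases psiX_root h0 h1 h20 h21 hX with e | e | e
  · exact Or.inl ⟨e, key x y e.symm rfl⟩
  · right
    rcases t1_roots hE h0 e with e | e
    · exact Or.inl ⟨e, key _ _ e.symm (t1_spec hE h0 h1).2.2.2.2⟩
    · exact Or.inr (Or.inl ⟨e, key' _ _ e.symm (t1_spec hE.neg h0 h1).2.2.2.2⟩)
  · right; right; right
    rcases t3_roots hE h1 e with e | e
    · exact Or.inl ⟨e, key _ _ e.symm (t3_spec hE h0 h1).2.2.2.2⟩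
    · exact Or.inr ⟨e, key' _ _ e.symm (t3_spec hE.neg h0 h1).2.2.2.2⟩

end FLTAgent.SmallCurves.X1Eleven
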